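/-
S55 / 47c (helper92): the `n`-th power quotient of a finitely generated abelian group.

For a finitely generated `ℤ`-module `M` and `n ≠ 0`:
  `|M / nM| = n ^ rank M * |M[n]|`
(`card_quotient_range_smulEnd`), and the multiplicative form for a commutative group `A` with
`Module.Finite ℤ (Additive A)` (`card_quotient_range_powMonoidHom`).
Mathlib only.  Complete proofs.
-/
import Mathlib

set_option autoImplicit false
set_option linter.unusedSectionVars false

open Module

noncomputable section

namespace Fermat.Agent.S55.S2Count92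

section Additive

variable (M : Type*) [AddCommGroup M]

/-- multiplication by `n` as a `ℤ`-linear endomorphism -/
def smulEnd (n : ℕ) : M →ₗ[ℤ] M := (n : ℤ) • LinearMap.id

variable {M}

@[simp] theorem smulEnd_apply (n : ℕ) (x : M) : smulEnd M n x = n • x := by
  simp [smulEnd]

/-- the kernel of multiplication by `n` consists of torsion elements -/
theorem ker_smulEnd_le_torsion (n : ℕ) [NeZero n] :
    LinearMap.ker (smulEnd M n) ≤ Submodule.torsion ℤ M := by
  intro x hx
  rw [LinearMap.mem_ker, smulEnd_apply] at hx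
  rw [Submodule.mem_torsion_iff]
  refine ⟨⟨(n : ℤ), ?_⟩, ?_⟩
  · rw [mem_nonZeroDivisors_iff_ne_zero]
    exact_mod_cast NeZero.ne n
  · change (n : ℤ) • x = 0
    rw [natCast_zsmul]; exact hx

/-- `x` torsion with `x = n • y` forces `y` torsion -/
theorem mem_torsion_of_smul_mem (n : ℕ) [NeZero n] {y : M}
    (h : n • y ∈ Submodule.torsion ℤ M) : y ∈ Submodule.torsion ℤ M := by
  rw [Submodule.mem_torsion_iff] at h ⊢
  obtain ⟨⟨a, ha⟩, hay⟩ := h
  refine ⟨⟨a * (n : ℤ), ?_⟩, ?_⟩
  · rw [mem_nonZeroDivisors_iff_ne_zero] at ha ⊢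
    exact mul_ne_zero ha (by exact_mod_cast NeZero.ne n)
  · change (a * (n : ℤ)) • y = 0
    change a • (n • y) = 0 at hay
    rw [mul_smul, natCast_zsmul]; exact hay

section Free

variable (N : Type*) [AddCommGroup N] [Module.Free ℤ N]

theorem smulEnd_injective_of_free (n : ℕ) [NeZero n] : Function.Injective (smulEnd N n) := by
  intro x y h
  rw [smulEnd_apply, smulEnd_apply] at h
  have hn : (n : ℤ) ≠ 0 := by exact_mod_cast NeZero.ne n
  have h' : (n : ℤ) • x = (n : ℤ) • y := by rw [natCast_zsmul, natCast_zsmul]; exact h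
  exact smul_right_injective N hn h'

/-- free case: `|N / nN| = n ^ rank N` -/
theorem card_quotient_range_smulEnd_of_free [Module.Finite ℤ N] (n : ℕ) [NeZero n] :
    Nat.card (N ⧸ LinearMap.range (smulEnd N n)) = n ^ finrank ℤ N := by
  set g := smulEnd N n with hg
  have hinj : Function.Injective g := smulEnd_injective_of_free N n
  let e : N ≃ₗ[ℤ] LinearMap.range g := LinearEquiv.ofInjective g hinj
  have h1 := Submodule.natAbs_det_equiv (LinearMap.range g) e
  have h2 : (LinearMap.range g).subtype ∘ₗ
      AddMonoidHom.toIntLinearMap ((e : N →+ LinearMap.range g)) = g := by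
    ext x
    rfl
  rw [h2] at h1
  rw [← h1, hg, smulEnd, LinearMap.det_smul, LinearMap.det_id, mul_one, Int.natAbs_pow,
    Int.natAbs_natCast]

end Free

section General

variable (M) [Module.Finite ℤ M]

/-- the torsion submodule has rank `0` -/
theorem finrank_torsion_eq_zero : finrank ℤ (Submodule.torsion ℤ M) = 0 := by
  apply Module.finrank_eq_zero_of_rank_eq_zero
  rw [rank_eq_zero_iff]
  rintro ⟨x, hx⟩
  rw [Submodule.mem_torsion_iff] at hx
  obtain ⟨⟨a, ha⟩, hax⟩ := hx
  refine ⟨a, nonZeroDivisors.ne_zero ha, ?_⟩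
  ext
  exact hax

theorem finrank_quotient_torsion :
    finrank ℤ (M ⧸ Submodule.torsion ℤ M) = finrank ℤ M := by
  have h := (Submodule.torsion ℤ M).finrank_quotient_add_finrank
  rw [finrank_torsion_eq_zero, add_zero] at h
  exact h

theorem comap_mkQ_range_smulEnd (n : ℕ) :
    Submodule.comap (Submodule.torsion ℤ M).mkQ
        (LinearMap.range (smulEnd (M ⧸ Submodule.torsion ℤ M) n)) =
      LinearMap.range (smulEnd M n) ⊔ Submodule.torsion ℤ M := by
  ext x
  rw [Submodule.mem_comap, LinearMap.mem_range, Submodule.mem_sup]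
  constructor
  · rintro ⟨y, hy⟩
    obtain ⟨y, rfl⟩ := Submodule.mkQ_surjective _ y
    rw [smulEnd_apply, ← map_nsmul, ← sub_eq_zero, ← map_sub, Submodule.mkQ_apply,
      Submodule.Quotient.mk_eq_zero] at hy
    refine ⟨n • y, ⟨y, smulEnd_apply n y⟩, x - n • y, ?_, by abel⟩
    have := (Submodule.torsion ℤ M).neg_mem hy
    rwa [neg_sub] at this
  · rintro ⟨_, ⟨y, rfl⟩, t, ht, rfl⟩
    refine ⟨(Submodule.torsion ℤ M).mkQ y, ?_⟩
    rw [smulEnd_apply, smulEnd_apply, map_add, map_nsmul]
    have : (Submodule.torsion ℤ M).mkQ t = 0 := by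
      rw [Submodule.mkQ_apply, Submodule.Quotient.mk_eq_zero]; exact ht
    rw [this, add_zero]

/-- the torsion subgroup of a finitely generated abelian group is finite -/
theorem finite_torsion : Finite (Submodule.torsion ℤ M) :=
  Module.finite_of_fg_torsion (Submodule.torsion ℤ M) Submodule.torsion_isTorsion

/-- the `n`-torsion of the torsion subgroup is the `n`-torsion -/
def kerEquiv (n : ℕ) [NeZero n] :
    (nsmulAddMonoidHom n : (Submodule.torsion ℤ M).toAddSubgroup →+
        (Submodule.torsion ℤ M).toAddSubgroup).ker ≃ LinearMap.ker (smulEnd M n) where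
  toFun x := ⟨x.1.1, by
    have h := x.2
    rw [AddMonoidHom.mem_ker, nsmulAddMonoidHom_apply] at h
    rw [LinearMap.mem_ker, smulEnd_apply]
    have h' : ((n • x.1 : (Submodule.torsion ℤ M).toAddSubgroup) : M) = 0 := by rw [h]; rfl
    rwa [AddSubgroup.coe_nsmul] at h'⟩
  invFun x := ⟨⟨x.1, ker_smulEnd_le_torsion n x.2⟩, by
    have h := x.2
    rw [LinearMap.mem_ker, smulEnd_apply] at h
    rw [AddMonoidHom.mem_ker]
    apply Subtype.ext
    simpa using h⟩
  left_inv x := by ext; rfl
  right_inv x := by ext; rfl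

theorem relIndex_range_smulEnd_torsion (n : ℕ) [NeZero n] :
    (LinearMap.range (smulEnd M n)).toAddSubgroup.relIndex
        (Submodule.torsion ℤ M).toAddSubgroup = Nat.card (LinearMap.ker (smulEnd M n)) := by
  have hfin : Finite (Submodule.torsion ℤ M).toAddSubgroup := finite_torsion M
  have hrange : (nsmulAddMonoidHom n : (Submodule.torsion ℤ M).toAddSubgroup →+
      (Submodule.torsion ℤ M).toAddSubgroup).range =
      (LinearMap.range (smulEnd M n)).toAddSubgroup.addSubgroupOf
        (Submodule.torsion ℤ M).toAddSubgroup := by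
    ext ⟨x, hx⟩
    rw [AddMonoidHom.mem_range, AddSubgroup.mem_addSubgroupOf]
    constructor
    · rintro ⟨⟨y, hy⟩, hyx⟩
      have := congrArg Subtype.val hyx
      exact ⟨y, by simpa using this⟩
    · rintro ⟨y, hy⟩
      rw [smulEnd_apply] at hy
      have hyT : y ∈ Submodule.torsion ℤ M := mem_torsion_of_smul_mem n (by rw [hy]; exact hx)
      exact ⟨⟨y, hyT⟩, by apply Subtype.ext; simpa using hy⟩
  rw [AddSubgroup.relIndex, ← hrange, AddSubgroup.index_range]
  exact Nat.card_congr (kerEquiv M n)

/-- **`|M / nM| = n ^ rank M * |M[n]|`** for a finitely generated abelian group `M`, `n ≠ 0`. -/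
theorem card_quotient_range_smulEnd (n : ℕ) [NeZero n] :
    Nat.card (M ⧸ LinearMap.range (smulEnd M n)) =
      n ^ finrank ℤ M * Nat.card (LinearMap.ker (smulEnd M n)) := by
  have hQ := card_quotient_range_smulEnd_of_free (M ⧸ Submodule.torsion ℤ M) n
  rw [finrank_quotient_torsion] at hQ
  -- index of `P ⊔ T`
  have h1 : (LinearMap.range (smulEnd M n) ⊔ Submodule.torsion ℤ M).toAddSubgroup.index =
      n ^ finrank ℤ M := by
    rw [← comap_mkQ_range_smulEnd]
    have hc : (Submodule.comap (Submodule.torsion ℤ M).mkQ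
        (LinearMap.range (smulEnd (M ⧸ Submodule.torsion ℤ M) n))).toAddSubgroup =
        AddSubgroup.comap (Submodule.torsion ℤ M).mkQ.toAddMonoidHom
          (LinearMap.range (smulEnd (M ⧸ Submodule.torsion ℤ M) n)).toAddSubgroup := rfl
    rw [hc, AddSubgroup.index_comap_of_surjective _ (Submodule.mkQ_surjective _)]
    exact hQ
  have h2 := AddSubgroup.relIndex_mul_index
    (H := (LinearMap.range (smulEnd M n)).toAddSubgroup)
    (K := (LinearMap.range (smulEnd M n) ⊔ Submodule.torsion ℤ M).toAddSubgroup)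
    (by
      intro x hx
      exact (le_sup_left : LinearMap.range (smulEnd M n) ≤ _) hx)
  rw [h1, Submodule.sup_toAddSubgroup, AddSubgroup.relIndex_sup_left,
    relIndex_range_smulEnd_torsion] at h2
  change (LinearMap.range (smulEnd M n)).toAddSubgroup.index = _
  rw [← h2, mul_comm]

end General

end Additive

section Multiplicative

variable (A : Type*) [CommGroup A] [Module.Finite ℤ (Additive A)]

theorem toAddSubgroup_range_powMonoidHom (n : ℕ) :
    Subgroup.toAddSubgroup (powMonoidHom n : A →* A).range =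
      (LinearMap.range (smulEnd (Additive A) n)).toAddSubgroup := by
  ext x
  constructor
  · rintro ⟨y, hy⟩
    refine ⟨Additive.ofMul y, ?_⟩
    rw [smulEnd_apply]
    exact hy
  · rintro ⟨y, hy⟩
    rw [smulEnd_apply] at hy
    exact ⟨Additive.toMul y, hy⟩

/-- the `n`-torsion of `A` and of `Additive A` -/
def kerPowEquiv (n : ℕ) :
    (powMonoidHom n : A →* A).ker ≃ LinearMap.ker (smulEnd (Additive A) n) where
  toFun x := ⟨Additive.ofMul x.1, by
    have h := x.2
    rw [MonoidHom.mem_ker, powMonoidHom_apply] at h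
    rw [LinearMap.mem_ker, smulEnd_apply]
    exact congrArg Additive.ofMul h⟩
  invFun x := ⟨Additive.toMul x.1, by
    have h := x.2
    rw [LinearMap.mem_ker, smulEnd_apply] at h
    rw [MonoidHom.mem_ker, powMonoidHom_apply]
    exact congrArg Additive.toMul h⟩
  left_inv x := by ext; rfl
  right_inv x := by ext; rfl

/-- **`|A / Aⁿ| = n ^ rank A * |A[n]|`** for a finitely generated commutative group `A`
(written multiplicatively), `n ≠ 0`. -/
theorem card_quotient_range_powMonoidHom (n : ℕ) [NeZero n] :
    Nat.card (A ⧸ (powMonoidHom n : A →* A).range) =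
      n ^ finrank ℤ (Additive A) * Nat.card (powMonoidHom n : A →* A).ker := by
  have h := card_quotient_range_smulEnd (Additive A) n
  change (powMonoidHom n : A →* A).range.index = _
  rw [← Subgroup.index_toAddSubgroup, toAddSubgroup_range_powMonoidHom,
    Nat.card_congr (kerPowEquiv A n)]
  exact h

/-- index form -/
theorem index_range_powMonoidHom (n : ℕ) [NeZero n] :
    (powMonoidHom n : A →* A).range.index =
      n ^ finrank ℤ (Additive A) * Nat.card (powMonoidHom n : A →* A).ker :=
  card_quotient_range_powMonoidHom A n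

/-- subgroup form: for a subgroup `K` of a commutative group `G`, the `n`-th powers of elements
of `K` (as a subgroup of `G`) have relative index `n ^ rank K * |K[n]|` in `K`. -/
theorem subgroupOf_map_powMonoidHom {G : Type*} [CommGroup G] (K : Subgroup G) (n : ℕ) :
    (K.map (powMonoidHom n : G →* G)).subgroupOf K = (powMonoidHom n : K →* K).range := by
  ext ⟨x, hx⟩
  rw [Subgroup.mem_subgroupOf, Subgroup.mem_map, MonoidHom.mem_range]
  constructor
  · rintro ⟨y, hy, hyx⟩
    exact ⟨⟨y, hy⟩, Subtype.ext hyx⟩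
  · rintro ⟨⟨y, hy⟩, hyx⟩
    exact ⟨y, hy, congrArg Subtype.val hyx⟩

theorem relIndex_map_powMonoidHom {G : Type*} [CommGroup G] (K : Subgroup G)
    [Module.Finite ℤ (Additive K)] (n : ℕ) [NeZero n] :
    (K.map (powMonoidHom n : G →* G)).relIndex K =
      n ^ finrank ℤ (Additive K) * Nat.card (powMonoidHom n : K →* K).ker := by
  rw [Subgroup.relIndex, subgroupOf_map_powMonoidHom]
  exact index_range_powMonoidHom K n

end Multiplicative

end Fermat.Agent.S55.S2Count92

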