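/-
S55 / 47c (helper92): the ONE number `s` of the (S2) count.

For a number field `F`, a finite set `T` of primes of `𝓞 F`, the `T`-units `U_T` (Mathlib's
`Set.unit`, in helper19's notation `SUnitRank.sUnits F T`) and `n ≠ 0`:
  `|U_T / U_T^n| = n ^ (#T + rank 𝓞_F^×) * #μ_n(F)`              (`card_sUnits_quot_pow`)
and, if `F` contains a primitive `p`-th root of unity (`p` an odd prime, so `F` is totally complex):
  `|U_T / U_T^p| = p ^ (#T + r₂)`, `2 * (#T + r₂) = 2 * #T + [F : ℚ]`
  (`card_sUnits_quot_pow_of_primitiveRoot`, `sq_card_sUnits_quot_pow`).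
Built on helper19's Dirichlet `S`-unit theorem (`SUnit19.SUnitRank.finrank_sUnits`) and on
`PowQuot.card_quotient_range_powMonoidHom`.  Complete proofs.
-/
import Mathlib
import Fermat.Agent.S55.SUnit19.SUnitRank
import Fermat.Agent.S55.S2Count92.PowQuot

set_option autoImplicit false

open NumberField IsDedekindDomain Module
open Fermat.Agent.S55.SUnit19.SUnitRank

noncomputable section

namespace Fermat.Agent.S55.S2Count92

variable (F : Type*) [Field F] [NumberField F]
variable (T : Finset (HeightOneSpectrum (𝓞 F)))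

/-- an `n`-th root of unity of `F` is a `T`-unit -/
theorem rootsOfUnity_le_sUnits (n : ℕ) [NeZero n] : rootsOfUnity n F ≤ sUnits F T := by
  intro x hx v _
  rw [mem_rootsOfUnity] at hx
  have h1 : (v.valuation F ((x : Fˣ) : F)) ^ n = 1 := by
    rw [← map_pow, ← Units.val_pow_eq_pow_val, hx, Units.val_one, map_one]
  exact (pow_eq_one_iff_left (NeZero.ne n)).mp h1

/-- the `n`-torsion of the `T`-units is `μ_n(F)` -/
def kerPowSUnitsEquiv (n : ℕ) [NeZero n] :
    (powMonoidHom n : ↥(sUnits F T) →* ↥(sUnits F T)).ker ≃ rootsOfUnity n F where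
  toFun x := ⟨(x.1 : Fˣ), by
    have h := x.2
    rw [MonoidHom.mem_ker, powMonoidHom_apply] at h
    rw [mem_rootsOfUnity]
    have := congrArg (Subtype.val) h
    simpa using this⟩
  invFun x := ⟨⟨x.1, rootsOfUnity_le_sUnits F T n x.2⟩, by
    have h := x.2
    rw [mem_rootsOfUnity] at h
    rw [MonoidHom.mem_ker, powMonoidHom_apply]
    apply Subtype.ext
    simpa using h⟩
  left_inv x := by ext; rfl
  right_inv x := by ext; rfl

/-- **`|U_T / U_T^n| = n ^ (#T + rank) * #μ_n(F)`** for the `T`-units of a number field. -/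
theorem card_sUnits_quot_pow (n : ℕ) [NeZero n] :
    Nat.card (↥(sUnits F T) ⧸ (powMonoidHom n : ↥(sUnits F T) →* ↥(sUnits F T)).range) =
      n ^ (T.card + Units.rank F) * Nat.card (rootsOfUnity n F) := by
  rw [card_quotient_range_powMonoidHom, finrank_sUnits, Nat.card_congr (kerPowSUnitsEquiv F T n)]

/-- index form -/
theorem index_range_pow_sUnits (n : ℕ) [NeZero n] :
    (powMonoidHom n : ↥(sUnits F T) →* ↥(sUnits F T)).range.index =
      n ^ (T.card + Units.rank F) * Nat.card (rootsOfUnity n F) :=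
  card_sUnits_quot_pow F T n

/-- relative-index form inside `Fˣ` (the shape of `SecondIneq74.Core` `hunit`) -/
theorem relIndex_map_pow_sUnits (n : ℕ) [NeZero n] :
    ((sUnits F T).map (powMonoidHom n : Fˣ →* Fˣ)).relIndex (sUnits F T) =
      n ^ (T.card + Units.rank F) * Nat.card (rootsOfUnity n F) := by
  rw [relIndex_map_powMonoidHom, finrank_sUnits, Nat.card_congr (kerPowSUnitsEquiv F T n)]

instance finite_sUnits_quot_pow (n : ℕ) [NeZero n] :
    Finite (↥(sUnits F T) ⧸ (powMonoidHom n : ↥(sUnits F T) →* ↥(sUnits F T)).range) := by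
  apply Nat.finite_of_card_ne_zero
  rw [card_sUnits_quot_pow]
  have h1 : Nat.card (rootsOfUnity n F) ≠ 0 := Nat.card_pos.ne'
  exact mul_ne_zero (pow_ne_zero _ (NeZero.ne n)) h1

variable {F}

/-- if `F` contains a primitive `n`-th root of unity: `|U_T / U_T^n| = n ^ (#T + rank + 1)` -/
theorem card_sUnits_quot_pow_of_primitiveRoot {n : ℕ} [NeZero n] {ζ : F}
    (hζ : IsPrimitiveRoot ζ n) :
    Nat.card (↥(sUnits F T) ⧸ (powMonoidHom n : ↥(sUnits F T) →* ↥(sUnits F T)).range) =
      n ^ (T.card + Units.rank F + 1) := by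
  rw [card_sUnits_quot_pow, hζ.card_rootsOfUnity, pow_succ]

theorem relIndex_map_pow_sUnits_of_primitiveRoot {n : ℕ} [NeZero n] {ζ : F}
    (hζ : IsPrimitiveRoot ζ n) :
    ((sUnits F T).map (powMonoidHom n : Fˣ →* Fˣ)).relIndex (sUnits F T) =
      n ^ (T.card + Units.rank F + 1) := by
  rw [relIndex_map_pow_sUnits, hζ.card_rootsOfUnity, pow_succ]

/-- a number field containing a primitive `n`-th root of unity, `2 < n`, is totally complex:
`rank + 1 = r₂` and `2 r₂ = [F : ℚ]` -/
theorem two_mul_rank_add_one {n : ℕ} (hn : 2 < n) {ζ : F} (hζ : IsPrimitiveRoot ζ n) :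
    2 * (Units.rank F + 1) = finrank ℚ F := by
  have h0 := NumberField.InfinitePlace.IsPrimitiveRoot.nrRealPlaces_eq_zero_of_two_lt hn hζ
  have h1 := InfinitePlace.card_add_two_mul_card_eq_rank F
  have h2 := InfinitePlace.card_eq_nrRealPlaces_add_nrComplexPlaces F
  rw [h0, zero_add] at h1 h2
  have h3 : 0 < Fintype.card (InfinitePlace F) := Fintype.card_pos
  rw [Units.rank, Nat.sub_add_cancel h3, h2, h1]

theorem rank_add_one_eq_nrComplexPlaces {n : ℕ} (hn : 2 < n) {ζ : F}
    (hζ : IsPrimitiveRoot ζ n) :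
    Units.rank F + 1 = InfinitePlace.nrComplexPlaces F := by
  have h0 := NumberField.InfinitePlace.IsPrimitiveRoot.nrRealPlaces_eq_zero_of_two_lt hn hζ
  have h2 := InfinitePlace.card_eq_nrRealPlaces_add_nrComplexPlaces F
  rw [h0, zero_add] at h2
  have h3 : 0 < Fintype.card (InfinitePlace F) := Fintype.card_pos
  rw [Units.rank, Nat.sub_add_cancel h3, h2]

/-- **the number `s`**: for `μ_p ⊂ F`, `p` an odd prime, `|U_T / U_T^p| = p ^ (#T + r₂)`. -/
theorem card_sUnits_quot_pow_eq_pow_nrComplexPlaces {p : ℕ} [Fact p.Prime] (hp2 : p ≠ 2) {ζ : F}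
    (hζ : IsPrimitiveRoot ζ p) :
    Nat.card (↥(sUnits F T) ⧸ (powMonoidHom p : ↥(sUnits F T) →* ↥(sUnits F T)).range) =
      p ^ (T.card + InfinitePlace.nrComplexPlaces F) := by
  have hp : p.Prime := Fact.out
  have : NeZero p := ⟨hp.ne_zero⟩
  have h2 : 2 < p := lt_of_le_of_ne hp.two_le (Ne.symm hp2)
  rw [card_sUnits_quot_pow_of_primitiveRoot T hζ, add_assoc,
    rank_add_one_eq_nrComplexPlaces h2 hζ]

/-- relative-index form of the number `s` -/
theorem relIndex_map_pow_sUnits_eq_pow_nrComplexPlaces {p : ℕ} [Fact p.Prime] (hp2 : p ≠ 2)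
    {ζ : F} (hζ : IsPrimitiveRoot ζ p) :
    ((sUnits F T).map (powMonoidHom p : Fˣ →* Fˣ)).relIndex (sUnits F T) =
      p ^ (T.card + InfinitePlace.nrComplexPlaces F) := by
  have hp : p.Prime := Fact.out
  have : NeZero p := ⟨hp.ne_zero⟩
  have h2 : 2 < p := lt_of_le_of_ne hp.two_le (Ne.symm hp2)
  rw [relIndex_map_pow_sUnits_of_primitiveRoot T hζ, add_assoc,
    rank_add_one_eq_nrComplexPlaces h2 hζ]

/-- **(S2) count, global side**: `|U_T / U_T^p| ^ 2 = p ^ (2 #T + [F : ℚ])`
(`= ∏_{w ∈ T} |F_w^× / p|`, the order of the local space `P`). -/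
theorem sq_card_sUnits_quot_pow {p : ℕ} [Fact p.Prime] (hp2 : p ≠ 2) {ζ : F}
    (hζ : IsPrimitiveRoot ζ p) :
    Nat.card (↥(sUnits F T) ⧸ (powMonoidHom p : ↥(sUnits F T) →* ↥(sUnits F T)).range) ^ 2 =
      p ^ (2 * T.card + finrank ℚ F) := by
  have hp : p.Prime := Fact.out
  have : NeZero p := ⟨hp.ne_zero⟩
  have h2 : 2 < p := lt_of_le_of_ne hp.two_le (Ne.symm hp2)
  rw [card_sUnits_quot_pow_of_primitiveRoot T hζ, ← pow_mul, ← two_mul_rank_add_one h2 hζ]
  congr 1
  ring

end Fermat.Agent.S55.S2Count92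

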