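/-
S55 / 47c-bis (helper92): ES-BRIDGE.

`ESDiv20.IsSUnitAt S` / `ESDiv20.ES S` are written in the Prelude vocabulary (valuation subrings `A`
of `ℚ̄` with `A.LiesOverPrime q`).  For a number field `L ⊆ ℚ̄` this file identifies them with
Mathlib's `T`-units (`Set.unit`) of `L`, `T` = the primes of `𝓞 L` above `S`, and plugs in the
count `S2Count92.card_sUnits_quot_pow…`:

* `placeOfVS L A hq hA : HeightOneSpectrum (𝓞 L)` : the prime of `𝓞 L` cut out by `A`;
* `mem_iff_valuation_le_one`, `valuation_eq_one_iff`, `mem_and_inv_mem_iff` : dictionary;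
* `exists_placeOfVS_eq` : every prime of `𝓞 L` arises;
* `isSUnitAt_iff` : `IsSUnitAt S x ↔ x ∈ T.unit L`;
* `ESL S L`, `ESL_eq`, `mem_map_ESL_iff` : `H⁰(G_L, E_S) = E_S ∩ Lˣ = T`-units of `L`;
* `card_ESL_quot_pow`, `sq_card_ESL_quot_pow` : `|E_{L,S}/p| = p ^ (#T + r₂)`.
-/
import Mathlib
import Fermat.Agent.S55.ESDiv20
import Fermat.Agent.Lib.InertiaGenerate
import Fermat.Agent.S55.S2Count92.SUnitPow

set_option autoImplicit false
set_option linter.unusedSectionVars false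

open NumberField IsDedekindDomain Module
open Fermat.Agent.S55.SUnit19.SUnitRank
open Fermat.Agent.Lib.FrobeniusExists (isIntegral_int_mem inv_mem_of_not_mem_nonunits
  mul_mem_nonunits_of_mem)

noncomputable section

namespace Fermat.Agent.S55.S2Count92

/-- `ℚ̄` -/
abbrev Qb : Type := AlgebraicClosure ℚ

/-- `G_ℚ` -/
abbrev GQ : Type := AlgebraicClosure ℚ ≃ₐ[ℚ] AlgebraicClosure ℚ

section Dict

variable (L : IntermediateField ℚ Qb) [NumberField L] (A : ValuationSubring Qb)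

/-- `𝓞 L → A` (integral elements lie in every valuation subring) -/
def toVS : 𝓞 L →+* A where
  toFun x := ⟨((x : L) : Qb), isIntegral_int_mem A (map_isIntegral_int (algebraMap L Qb) x.2)⟩
  map_one' := Subtype.ext (by simp)
  map_mul' x y := Subtype.ext (by simp)
  map_zero' := Subtype.ext (by simp)
  map_add' x y := Subtype.ext (by simp)

/-- the prime ideal of `𝓞 L` cut out by `A` -/
def idealOfVS : Ideal (𝓞 L) := (IsLocalRing.maximalIdeal A).comap (toVS L A)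

instance idealOfVS_isPrime : (idealOfVS L A).IsPrime := Ideal.comap_isPrime (toVS L A) _

variable {L A}

theorem mem_idealOfVS_iff {x : 𝓞 L} : x ∈ idealOfVS L A ↔ ((x : L) : Qb) ∈ A.nonunits := by
  rw [idealOfVS, Ideal.mem_comap]
  exact (A.coe_mem_nonunits_iff (a := toVS L A x)).symm

theorem natCast_mem_idealOfVS {q : ℕ} (hA : A.LiesOverPrime q) : ((q : ℕ) : 𝓞 L) ∈ idealOfVS L A := by
  rw [mem_idealOfVS_iff]
  have : (((q : 𝓞 L) : L) : Qb) = (q : Qb) := by simp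
  rw [this]
  exact hA

theorem idealOfVS_ne_bot {q : ℕ} (hq : q.Prime) (hA : A.LiesOverPrime q) : idealOfVS L A ≠ ⊥ := by
  intro h
  have h1 := natCast_mem_idealOfVS (L := L) hA
  rw [h, Ideal.mem_bot] at h1
  have : (q : 𝓞 L) ≠ 0 := Nat.cast_ne_zero.mpr hq.ne_zero
  exact this h1

variable (L A)

/-- the prime of `𝓞 L` below a valuation subring `A` of `ℚ̄` over the rational prime `q` -/
def placeOfVS {q : ℕ} (hq : q.Prime) (hA : A.LiesOverPrime q) : HeightOneSpectrum (𝓞 L) :=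
  ⟨idealOfVS L A, inferInstance, idealOfVS_ne_bot hq hA⟩

variable {L A}

theorem mem_placeOfVS_iff {q : ℕ} (hq : q.Prime) (hA : A.LiesOverPrime q) {x : 𝓞 L} :
    x ∈ (placeOfVS L A hq hA).asIdeal ↔ ((x : L) : Qb) ∈ A.nonunits :=
  mem_idealOfVS_iff

theorem natCast_mem_placeOfVS {q : ℕ} (hq : q.Prime) (hA : A.LiesOverPrime q) :
    ((q : ℕ) : 𝓞 L) ∈ (placeOfVS L A hq hA).asIdeal :=
  natCast_mem_idealOfVS hA

/-- an element of `𝓞 L` outside the prime is a unit of `A` -/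
theorem inv_mem_of_notMem {q : ℕ} (hq : q.Prime) (hA : A.LiesOverPrime q) {d : 𝓞 L}
    (hd : d ∉ (placeOfVS L A hq hA).asIdeal) : (((d : L) : Qb))⁻¹ ∈ A := by
  rw [mem_placeOfVS_iff] at hd
  exact inv_mem_of_not_mem_nonunits A hd

theorem coe_mem (x : 𝓞 L) : ((x : L) : Qb) ∈ A := (toVS L A x).2

/-- **dictionary, `≤ 1`** -/
theorem mem_iff_valuation_le_one {q : ℕ} (hq : q.Prime) (hA : A.LiesOverPrime q) (x : L) :
    (x : Qb) ∈ A ↔ (placeOfVS L A hq hA).valuation L x ≤ 1 := by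
  set v := placeOfVS L A hq hA with hv
  constructor
  · intro hx
    by_contra hcon
    rw [not_le] at hcon
    have hx0 : x ≠ 0 := by
      rintro rfl
      rw [map_zero] at hcon
      exact not_lt_of_ge zero_le_one hcon
    have hinv : v.valuation L x⁻¹ ≤ 1 := by
      rw [map_inv₀]
      exact (inv_le_one_of_one_le₀ hcon.le)
    obtain ⟨n, d, hnd⟩ := v.exists_primeCompl_mul_eq_of_integer x⁻¹ hinv
    -- `v n < 1`
    have hd1 : v.valuation L (algebraMap (𝓞 L) L d) = 1 :=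
      (v.valuation_eq_one_iff_notMem (K := L)).mpr d.2
    have hn : v.valuation L (algebraMap (𝓞 L) L n) < 1 := by
      rw [← hnd, map_mul, hd1, mul_one, map_inv₀]
      exact inv_lt_one_of_one_lt₀ hcon
    have hnP : n ∈ v.asIdeal := (v.valuation_lt_one_iff_mem (K := L) n).mp hn
    have hnA : (((n : 𝓞 L) : L) : Qb) ∈ A.nonunits := (mem_placeOfVS_iff hq hA).mp hnP
    -- `d = n * x`
    have hdx : (algebraMap (𝓞 L) L d) = algebraMap (𝓞 L) L n * x := by
      rw [← hnd]; field_simp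
    have hdA : ((((d : 𝓞 L)) : L) : Qb) ∈ A.nonunits := by
      have h1 : ((((d : 𝓞 L)) : L) : Qb) = (x : Qb) * (((n : 𝓞 L) : L) : Qb) := by
        have := congrArg (fun y : L => (y : Qb)) hdx
        simp only [IntermediateField.coe_mul] at this
        rw [mul_comm] at this
        exact this
      rw [h1]
      exact mul_mem_nonunits_of_mem A hx hnA
    exact d.2 ((mem_placeOfVS_iff hq hA).mpr hdA)
  · intro hx
    obtain ⟨n, d, hnd⟩ := v.exists_primeCompl_mul_eq_of_integer x hx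
    have hd0 : (algebraMap (𝓞 L) L d) ≠ 0 := by
      intro h0
      have : ((d : 𝓞 L)) = 0 := by
        exact (FaithfulSMul.algebraMap_injective (𝓞 L) L) (h0.trans (map_zero _).symm)
      exact d.2 (this ▸ v.asIdeal.zero_mem)
    have hxeq : x = algebraMap (𝓞 L) L n * (algebraMap (𝓞 L) L d)⁻¹ := by
      rw [← hnd]; field_simp
    have h1 : (x : Qb) = (((n : 𝓞 L) : L) : Qb) * ((((d : 𝓞 L)) : L) : Qb)⁻¹ := by
      have := congrArg (fun y : L => (y : Qb)) hxeq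
      simpa using this
    rw [h1]
    exact A.mul_mem _ _ (coe_mem n) (inv_mem_of_notMem hq hA d.2)

/-- **dictionary, units**: `x, x⁻¹ ∈ A ↔ v(x) = 1` -/
theorem mem_and_inv_mem_iff {q : ℕ} (hq : q.Prime) (hA : A.LiesOverPrime q) {x : L} (hx : x ≠ 0) :
    ((x : Qb) ∈ A ∧ (x : Qb)⁻¹ ∈ A) ↔ (placeOfVS L A hq hA).valuation L x = 1 := by
  have h1 := mem_iff_valuation_le_one hq hA x
  have h2 := mem_iff_valuation_le_one hq hA x⁻¹
  have hcoe : ((x⁻¹ : L) : Qb) = (x : Qb)⁻¹ := by simp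
  rw [hcoe] at h2
  rw [h1, h2, map_inv₀]
  have hv0 : (placeOfVS L A hq hA).valuation L x ≠ 0 := (Valuation.ne_zero_iff _).mpr hx
  constructor
  · rintro ⟨a, b⟩
    exact le_antisymm a ((inv_le_one₀ (zero_lt_iff.mpr hv0)).mp b)
  · intro h
    rw [h]
    exact ⟨le_rfl, by rw [inv_one]⟩

/-- **dictionary, `= 1`** -/
theorem valuation_eq_one_iff {q : ℕ} (hq : q.Prime) (hA : A.LiesOverPrime q) {x : L}
    (hx : x ≠ 0) :
    A.valuation (x : Qb) = 1 ↔ (placeOfVS L A hq hA).valuation L x = 1 := by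
  rw [← mem_and_inv_mem_iff hq hA hx]
  have hx' : (x : Qb) ≠ 0 := by
    intro h
    exact hx (by exact_mod_cast h)
  constructor
  · intro h
    exact ESDiv20.mem_of_valuation_eq_one h
  · rintro ⟨a, b⟩
    exact ESDiv20.valuation_eq_one_of_mem a b hx'

section Exists

attribute [local instance] Fermat.Agent.Lib.InertiaGenerate.algOK

variable (L)

/-- every prime of `𝓞 L` is cut out by a valuation subring of `ℚ̄` -/
theorem exists_placeOfVS_eq (v : HeightOneSpectrum (𝓞 L)) :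
    ∃ (q : ℕ) (A : ValuationSubring Qb) (hq : q.Prime) (hA : A.LiesOverPrime q),
      placeOfVS L A hq hA = v := by
  have : FiniteDimensional ℚ L := NumberField.to_finiteDimensional
  have := v.isPrime
  obtain ⟨q, A, hq, hA, h⟩ :=
    Fermat.Agent.Lib.InertiaGenerate.exists_valuationSubring_under_eq L v.asIdeal v.ne_bot
  refine ⟨q, A, hq, hA, ?_⟩
  apply HeightOneSpectrum.ext
  rw [← h]
  ext x
  rw [mem_placeOfVS_iff, Ideal.mem_comap, Fermat.Agent.Lib.InertiaGenerate.algebraMap_OK_apply,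
    Fermat.Agent.Lib.InertiaGenerate.mem_center, Fermat.Agent.Lib.InertiaGenerate.coe_ιK]

end Exists

end Dict

section SUnit

variable (S : Finset Nat.Primes) (L : IntermediateField ℚ Qb) [NumberField L]

/-- the primes of `𝓞 L` above `S`, as a set -/
def primesAboveSet : Set (HeightOneSpectrum (𝓞 L)) :=
  {v | ∃ q ∈ S, (((q : Nat.Primes) : ℕ) : 𝓞 L) ∈ v.asIdeal}

theorem primesAboveSet_finite : (primesAboveSet S L).Finite := by
  have h : primesAboveSet S L =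
      ⋃ q ∈ (S : Set Nat.Primes), {v : HeightOneSpectrum (𝓞 L) |
        v.asIdeal ∣ Ideal.span {(((q : Nat.Primes) : ℕ) : 𝓞 L)}} := by
    ext v
    simp only [primesAboveSet, Set.mem_ofPred_eq, Set.mem_iUnion, Finset.mem_coe,
      Ideal.dvd_span_singleton, exists_prop]
  rw [h]
  refine Set.Finite.biUnion S.finite_toSet (fun q _ => ?_)
  apply Ideal.finite_factors
  intro h0
  rw [Ideal.zero_eq_bot, Ideal.span_singleton_eq_bot] at h0
  exact (Nat.cast_ne_zero.mpr q.2.ne_zero) h0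

/-- the primes of `𝓞 L` above `S`, as a finset -/
def primesAboveS : Finset (HeightOneSpectrum (𝓞 L)) := (primesAboveSet_finite S L).toFinset

theorem mem_primesAboveS {v : HeightOneSpectrum (𝓞 L)} :
    v ∈ primesAboveS S L ↔ ∃ q ∈ S, (((q : Nat.Primes) : ℕ) : 𝓞 L) ∈ v.asIdeal := by
  rw [primesAboveS, Set.Finite.mem_toFinset]
  rfl

variable {L}

/-- a prime of `𝓞 L` contains at most one rational prime -/
theorem prime_unique {v : HeightOneSpectrum (𝓞 L)} {q q' : ℕ} (hq : q.Prime) (hq' : q'.Prime)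
    (h : (q : 𝓞 L) ∈ v.asIdeal) (h' : (q' : 𝓞 L) ∈ v.asIdeal) : q = q' := by
  by_contra hne
  have hcop : Nat.Coprime q q' := (Nat.coprime_primes hq hq').mpr hne
  obtain ⟨a, b, hab⟩ := Nat.isCoprime_iff_coprime.mpr hcop
  have h1 : ((a : 𝓞 L)) * (q : 𝓞 L) + (b : 𝓞 L) * (q' : 𝓞 L) = 1 := by
    have := congrArg (fun z : ℤ => (z : 𝓞 L)) hab
    simpa using this
  have h2 : (1 : 𝓞 L) ∈ v.asIdeal := by
    rw [← h1]
    exact v.asIdeal.add_mem (v.asIdeal.mul_mem_left _ h) (v.asIdeal.mul_mem_left _ h')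
  exact v.isPrime.ne_top ((Ideal.eq_top_iff_one _).mpr h2)

variable (L)

/-- **`S`-unit dictionary**: Prelude-style `S`-units of `ℚ̄` lying in `L` are Mathlib's `T`-units
of `L`, for `T` the set of primes of `𝓞 L` above `S` (in any presentation). -/
theorem isSUnitAt_iff (T : Finset (HeightOneSpectrum (𝓞 L)))
    (hT : ∀ v, v ∈ T ↔ ∃ q ∈ S, (((q : Nat.Primes) : ℕ) : 𝓞 L) ∈ v.asIdeal) (x : Lˣ) :
    ESDiv20.IsSUnitAt S (((x : Lˣ) : L) : Qb) ↔ x ∈ (T : Set (HeightOneSpectrum (𝓞 L))).unit L := by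
  constructor
  · rintro ⟨_, hx⟩ v hv
    obtain ⟨q, A, hq, hA, rfl⟩ := exists_placeOfVS_eq L v
    have hqS : (⟨q, hq⟩ : Nat.Primes) ∉ S := fun h =>
      hv (Finset.mem_coe.mpr ((hT _).mpr ⟨⟨q, hq⟩, h, natCast_mem_placeOfVS hq hA⟩))
    exact (mem_and_inv_mem_iff hq hA x.ne_zero).mp (hx ⟨q, hq⟩ hqS A hA)
  · intro hx
    refine ⟨?_, fun q hq A hA => ?_⟩
    · intro h0
      exact x.ne_zero (by exact_mod_cast h0)
    · have hv : placeOfVS L A q.2 hA ∉ (T : Set (HeightOneSpectrum (𝓞 L))) := by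
        intro h
        obtain ⟨q', hq'S, hq'v⟩ := (hT _).mp (Finset.mem_coe.mp h)
        have heq : (q' : ℕ) = (q : ℕ) :=
          prime_unique q'.2 q.2 hq'v (natCast_mem_placeOfVS q.2 hA)
        have : q' = q := Subtype.ext heq
        exact hq (this ▸ hq'S)
      exact (mem_and_inv_mem_iff q.2 hA x.ne_zero).mpr (hx _ hv)

/-- `E_{L,S} = E_S ∩ Lˣ` as a subgroup of `Lˣ` -/
def ESL : Subgroup Lˣ := (ESDiv20.ES S).comap (Units.map ((algebraMap L Qb : L →+* Qb) : L →* Qb))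

variable {S L}

theorem mem_ESL_iff {x : Lˣ} :
    x ∈ ESL S L ↔ (((x : Lˣ) : L) : Qb) ∈ ESDiv20.QS S ∧ ESDiv20.IsSUnitAt S (((x : Lˣ) : L) : Qb) :=
  Iff.rfl

variable (S L)

/-- **`E_{L,S}` = Mathlib's `T`-units of `L`** for `L ⊆ Q_S`. -/
theorem ESL_eq (hL : L ≤ ESDiv20.QS S) (T : Finset (HeightOneSpectrum (𝓞 L)))
    (hT : ∀ v, v ∈ T ↔ ∃ q ∈ S, (((q : Nat.Primes) : ℕ) : 𝓞 L) ∈ v.asIdeal) :
    ESL S L = sUnits L T := by
  ext x
  rw [mem_ESL_iff, isSUnitAt_iff S L T hT]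
  exact ⟨fun h => h.2, fun h => ⟨hL (x : L).2, h⟩⟩

theorem ESL_eq_primesAboveS (hL : L ≤ ESDiv20.QS S) : ESL S L = sUnits L (primesAboveS S L) :=
  ESL_eq S L hL _ (fun _ => mem_primesAboveS S L)

/-- **`H⁰(G_L, E_S) = E_{L,S}`**: the elements of `E_S` fixed by `G_L = L.fixingSubgroup` are
exactly the images of the elements of `ESL S L`. -/
theorem mem_map_ESL_iff (u : Qbˣ) :
    u ∈ (ESL S L).map (Units.map ((algebraMap L Qb : L →+* Qb) : L →* Qb)) ↔
      u ∈ ESDiv20.ES S ∧ ∀ g ∈ L.fixingSubgroup, Units.map ((g : Qb ≃ₐ[ℚ] Qb) : Qb →* Qb) u = u := by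
  constructor
  · rintro ⟨x, hx, rfl⟩
    refine ⟨hx, fun g hg => ?_⟩
    ext
    have := (IntermediateField.mem_fixingSubgroup_iff L g).mp hg ((x : Lˣ) : L) ((x : Lˣ) : L).2
    simpa using this
  · rintro ⟨hu, hfix⟩
    have hgal : IsGalois ℚ Qb := Fermat.Agent.Lib.FrobeniusExists.isGalois_Qb
    have huL : (u : Qb) ∈ L := by
      rw [← InfiniteGalois.fixedField_fixingSubgroup L, IntermediateField.mem_fixedField_iff]
      intro g hg
      have := congrArg (fun z : Qbˣ => (z : Qb)) (hfix g hg)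
      simpa using this
    have hne : (⟨(u : Qb), huL⟩ : L) ≠ 0 := by
      intro h0
      have h1 := congrArg (fun z : L => (z : Qb)) h0
      exact u.ne_zero h1
    have hmap : Units.map ((algebraMap L Qb : L →+* Qb) : L →* Qb)
        (Units.mk0 (⟨(u : Qb), huL⟩ : L) hne) = u := by
      ext; rfl
    refine ⟨Units.mk0 (⟨(u : Qb), huL⟩ : L) hne, ?_, hmap⟩
    change Units.map _ (Units.mk0 (⟨(u : Qb), huL⟩ : L) hne) ∈ ESDiv20.ES S
    rw [hmap]; exact hu

section Count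

variable {G : Type*} [CommGroup G]

theorem card_quot_pow_congr {H H' : Subgroup G} (h : H = H') (n : ℕ) :
    Nat.card (↥H ⧸ (powMonoidHom n : ↥H →* ↥H).range) =
      Nat.card (↥H' ⧸ (powMonoidHom n : ↥H' →* ↥H').range) := by
  subst h; rfl

end Count

/-- **the number `s` for `E_{L,S}`**: `|E_{L,S} / p| = p ^ (#T + r₂)` when `μ_p ⊂ L ⊆ Q_S`, `p` odd. -/
theorem card_ESL_quot_pow (hL : L ≤ ESDiv20.QS S) (T : Finset (HeightOneSpectrum (𝓞 L)))
    (hT : ∀ v, v ∈ T ↔ ∃ q ∈ S, (((q : Nat.Primes) : ℕ) : 𝓞 L) ∈ v.asIdeal)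
    {p : ℕ} [Fact p.Prime] (hp2 : p ≠ 2) {ζ : L} (hζ : IsPrimitiveRoot ζ p) :
    Nat.card (↥(ESL S L) ⧸ (powMonoidHom p : ↥(ESL S L) →* ↥(ESL S L)).range) =
      p ^ (T.card + InfinitePlace.nrComplexPlaces L) := by
  rw [card_quot_pow_congr (ESL_eq S L hL T hT)]
  exact card_sUnits_quot_pow_eq_pow_nrComplexPlaces T hp2 hζ

/-- square form: `|E_{L,S} / p| ^ 2 = p ^ (2 #T + [L : ℚ])` -/
theorem sq_card_ESL_quot_pow (hL : L ≤ ESDiv20.QS S) (T : Finset (HeightOneSpectrum (𝓞 L)))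
    (hT : ∀ v, v ∈ T ↔ ∃ q ∈ S, (((q : Nat.Primes) : ℕ) : 𝓞 L) ∈ v.asIdeal)
    {p : ℕ} [Fact p.Prime] (hp2 : p ≠ 2) {ζ : L} (hζ : IsPrimitiveRoot ζ p) :
    Nat.card (↥(ESL S L) ⧸ (powMonoidHom p : ↥(ESL S L) →* ↥(ESL S L)).range) ^ 2 =
      p ^ (2 * T.card + finrank ℚ L) := by
  rw [card_quot_pow_congr (ESL_eq S L hL T hT)]
  exact sq_card_sUnits_quot_pow T hp2 hζ

/-- general `n`: `|E_{L,S} / n| = n ^ (#T + rank) * #μ_n(L)` -/
theorem card_ESL_quot_pow_general (hL : L ≤ ESDiv20.QS S) (T : Finset (HeightOneSpectrum (𝓞 L)))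
    (hT : ∀ v, v ∈ T ↔ ∃ q ∈ S, (((q : Nat.Primes) : ℕ) : 𝓞 L) ∈ v.asIdeal)
    (n : ℕ) [NeZero n] :
    Nat.card (↥(ESL S L) ⧸ (powMonoidHom n : ↥(ESL S L) →* ↥(ESL S L)).range) =
      n ^ (T.card + Units.rank L) * Nat.card (rootsOfUnity n L) := by
  rw [card_quot_pow_congr (ESL_eq S L hL T hT)]
  exact card_sUnits_quot_pow L T n

end SUnit

end Fermat.Agent.S55.S2Count92
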