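/-
S55 / 47c-ter (helper92): `H⁰(G_L, E_S)` in the `Rep` packaging of helper20's `ESRep20`.

For a number field `L ⊆ ℚ̄` and a subgroup `V = L.fixingSubgroup` of `G_ℚ`:
* `eslEquivInvariants : Additive (ESL S L) ≃+ (Rep.res V.subtype (ESRep S)).ρ.invariants`
  (`= Profin15 H0` of the restricted module);
* `card_invariants_quot_smul` : `|H⁰(V, E_S) / p| = p ^ (#T + r₂)` for `μ_p ⊂ L ⊆ Q_S`, `p` odd;
* generic transport lemmas `card_quot_pow_eq_card_quot_smulEnd`, `card_quot_smulEnd_congr`.
-/
import Mathlib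
import Fermat.Agent.S55.ESRep20
import Fermat.Agent.S55.S2Count92.ESBridge

set_option autoImplicit false
set_option linter.unusedSectionVars false

open NumberField IsDedekindDomain Module
open Fermat.Agent.S55.SUnit19.SUnitRank

noncomputable section

namespace Fermat.Agent.S55.S2Count92

section Generic

/-- multiplicative `n`-th power quotient vs additive `n`-multiplication quotient -/
theorem card_quot_pow_eq_card_quot_smulEnd (A : Type*) [CommGroup A] (n : ℕ) :
    Nat.card (A ⧸ (powMonoidHom n : A →* A).range) =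
      Nat.card (Additive A ⧸ LinearMap.range (smulEnd (Additive A) n)) := by
  change (powMonoidHom n : A →* A).range.index =
    (LinearMap.range (smulEnd (Additive A) n)).toAddSubgroup.index
  have h : Subgroup.toAddSubgroup (powMonoidHom n : A →* A).range =
      (LinearMap.range (smulEnd (Additive A) n)).toAddSubgroup := by
    ext x
    constructor
    · rintro ⟨y, hy⟩
      refine ⟨Additive.ofMul y, ?_⟩
      rw [smulEnd_apply]
      exact hy
    · rintro ⟨y, hy⟩
      rw [smulEnd_apply] at hy
      exact ⟨Additive.toMul y, hy⟩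
  rw [← Subgroup.index_toAddSubgroup, h]

/-- transport of the `n`-multiplication quotient along an additive isomorphism -/
theorem card_quot_smulEnd_congr {A B : Type*} [AddCommGroup A] [AddCommGroup B] (e : A ≃+ B)
    (n : ℕ) :
    Nat.card (A ⧸ LinearMap.range (smulEnd A n)) =
      Nat.card (B ⧸ LinearMap.range (smulEnd B n)) := by
  refine Nat.card_congr (Submodule.Quotient.equiv _ _ e.toIntLinearEquiv ?_).toEquiv
  ext y
  rw [Submodule.mem_map, LinearMap.mem_range]
  constructor
  · rintro ⟨x, ⟨z, rfl⟩, rfl⟩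
    refine ⟨e z, ?_⟩
    rw [smulEnd_apply, smulEnd_apply]
    exact (map_nsmul e n z).symm
  · rintro ⟨z, rfl⟩
    refine ⟨smulEnd A n (e.symm z), ⟨e.symm z, rfl⟩, ?_⟩
    rw [smulEnd_apply, smulEnd_apply]
    change e (n • e.symm z) = n • z
    rw [map_nsmul, AddEquiv.apply_symm_apply]

end Generic

section H0

open Fermat.Agent.S55.ESDiv20 (ES QS)
open Fermat.Agent.S55.ESRep20 (ESRep)

variable (S : Finset Nat.Primes) (L : IntermediateField ℚ Qb) [NumberField L]

theorem mem_invariants_res_iff (V : Subgroup GQ) (e : ESRep S) :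
    e ∈ (Rep.res V.subtype (ESRep S)).ρ.invariants ↔ ∀ g ∈ V, (ESRep S).ρ g e = e := by
  rw [Representation.mem_invariants]
  constructor
  · intro h g hg
    exact h ⟨g, hg⟩
  · intro h g
    exact h g.1 g.2

/-- `E_{L,S} → E_S` -/
def eslToES : ↥(ESL S L) →* ↥(ES S) where
  toFun x := ⟨Units.map ((algebraMap L Qb : L →+* Qb) : L →* Qb) x.1, x.2⟩
  map_one' := Subtype.ext (by simp)
  map_mul' x y := Subtype.ext (by simp)

theorem eslToES_injective : Function.Injective (eslToES S L) := by
  intro x y h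
  have h1 := congrArg (fun z : ↥(ES S) => ((z : Qbˣ) : Qb)) h
  apply Subtype.ext
  apply Units.ext
  exact (algebraMap L Qb).injective h1

/-- `E_{L,S} → H⁰(V, E_S)` for `V = G_L`, as an additive map -/
def eslToInvariants (V : Subgroup GQ) (hV : V = L.fixingSubgroup) :
    Additive ↥(ESL S L) →+ ↥((Rep.res V.subtype (ESRep S)).ρ.invariants) where
  toFun x := ⟨Additive.ofMul (eslToES S L (Additive.toMul x)), by
    rw [mem_invariants_res_iff]
    intro g hg
    have hmem : ((eslToES S L (Additive.toMul x) : ↥(ES S)) : Qbˣ) ∈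
        (ESL S L).map (Units.map ((algebraMap L Qb : L →+* Qb) : L →* Qb)) :=
      ⟨(Additive.toMul x).1, (Additive.toMul x).2, rfl⟩
    have hfix := ((mem_map_ESL_iff S L _).mp hmem).2 g (hV ▸ hg)
    exact congrArg Additive.ofMul (Subtype.ext hfix)⟩
  map_zero' := by
    apply Subtype.ext
    change Additive.ofMul (eslToES S L 1) = 0
    rw [map_one]; rfl
  map_add' x y := by
    apply Subtype.ext
    change Additive.ofMul (eslToES S L (Additive.toMul x * Additive.toMul y)) = _
    rw [map_mul]; rfl

theorem eslToInvariants_apply (V : Subgroup GQ) (hV : V = L.fixingSubgroup)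
    (x : Additive ↥(ESL S L)) :
    ((eslToInvariants S L V hV x : ↥((Rep.res V.subtype (ESRep S)).ρ.invariants)) : ESRep S) =
      Additive.ofMul (eslToES S L (Additive.toMul x)) := rfl

theorem eslToInvariants_bijective (V : Subgroup GQ) (hV : V = L.fixingSubgroup) :
    Function.Bijective (eslToInvariants S L V hV) := by
  constructor
  · intro x y h
    have h1 := congrArg Subtype.val h
    rw [eslToInvariants_apply, eslToInvariants_apply] at h1
    have h2 : eslToES S L (Additive.toMul x) = eslToES S L (Additive.toMul y) :=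
      congrArg Additive.toMul h1
    exact congrArg Additive.ofMul (eslToES_injective S L h2)
  · rintro ⟨e, he⟩
    rw [mem_invariants_res_iff] at he
    have hu : ((Additive.toMul (show Additive ↥(ES S) from e) : ↥(ES S)) : Qbˣ) ∈
        (ESL S L).map (Units.map ((algebraMap L Qb : L →+* Qb) : L →* Qb)) := by
      rw [mem_map_ESL_iff]
      refine ⟨(Additive.toMul (show Additive ↥(ES S) from e) : ↥(ES S)).2, fun g hg => ?_⟩
      have := he g (hV ▸ hg)
      have h2 := congrArg (fun z : Additive ↥(ES S) => ((Additive.toMul z : ↥(ES S)) : Qbˣ)) this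
      exact h2
    obtain ⟨x, hx, hxe⟩ := hu
    refine ⟨Additive.ofMul (⟨x, hx⟩ : ↥(ESL S L)), ?_⟩
    apply Subtype.ext
    rw [eslToInvariants_apply]
    have : eslToES S L ⟨x, hx⟩ = (Additive.toMul (show Additive ↥(ES S) from e) : ↥(ES S)) :=
      Subtype.ext hxe
    change Additive.ofMul (eslToES S L ⟨x, hx⟩) = e
    rw [this]; rfl

/-- **`H⁰(V, E_S) = E_{L,S}`** for `V = G_L`, in helper20's `ESRep` packaging. -/
def eslEquivInvariants (V : Subgroup GQ) (hV : V = L.fixingSubgroup) :
    Additive ↥(ESL S L) ≃+ ↥((Rep.res V.subtype (ESRep S)).ρ.invariants) :=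
  AddEquiv.ofBijective (eslToInvariants S L V hV) (eslToInvariants_bijective S L V hV)

theorem eslEquivInvariants_apply (V : Subgroup GQ) (hV : V = L.fixingSubgroup)
    (x : ↥(ESL S L)) :
    ((eslEquivInvariants S L V hV (Additive.ofMul x) : ↥((Rep.res V.subtype (ESRep S)).ρ.invariants))
      : ESRep S) = Additive.ofMul (eslToES S L x) := rfl

/-- **`|H⁰(V, E_S) / p| = p ^ (#T + r₂)`** for `V = G_L`, `μ_p ⊂ L ⊆ Q_S`, `p` odd. -/
theorem card_invariants_quot_smul (V : Subgroup GQ) (hV : V = L.fixingSubgroup)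
    (hL : L ≤ QS S) (T : Finset (HeightOneSpectrum (𝓞 L)))
    (hT : ∀ v, v ∈ T ↔ ∃ q ∈ S, (((q : Nat.Primes) : ℕ) : 𝓞 L) ∈ v.asIdeal)
    {p : ℕ} [Fact p.Prime] (hp2 : p ≠ 2) {ζ : L} (hζ : IsPrimitiveRoot ζ p) :
    Nat.card (↥((Rep.res V.subtype (ESRep S)).ρ.invariants) ⧸
        LinearMap.range (smulEnd ↥((Rep.res V.subtype (ESRep S)).ρ.invariants) p)) =
      p ^ (T.card + InfinitePlace.nrComplexPlaces L) := by
  rw [← card_quot_smulEnd_congr (eslEquivInvariants S L V hV) p,
    ← card_quot_pow_eq_card_quot_smulEnd]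
  exact card_ESL_quot_pow S L hL T hT hp2 hζ

end H0

end Fermat.Agent.S55.S2Count92
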