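/-
S55 / 47c-quater (helper92): from the count `|H⁰ / p| = p ^ s` to the dimension `finrank E = s`
of the image of a Kummer-type connecting map.

Generic: `f : H⁰ →+ X` an additive map into a `ZMod p`-vector space with `ker f = p H⁰`
(`∀ c, f c = 0 ↔ ∃ b, p • b = c`: the shape of `kummer_δ₀_eq_zero_iff`), and
`|H⁰ / p H⁰| = p ^ s`.  Then every `ZMod p`-subspace `E` of `X` with underlying set `range f` has
`finrank E = s` (`finrank_eq_of_kummer`), and `Nat.card (range f) = p ^ s`.

Instance: `H⁰ = H⁰(V, E_S)`, `V = G_L` (`finrank_eq_of_kummer_ES`), giving the input `hs` of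
`CountWire96.finrank_sha2_le_finrank_sha1` with `s = #T + r₂`.
-/
import Mathlib
import Fermat.Agent.S55.S2Count92.ESH0

set_option autoImplicit false
set_option linter.unusedSectionVars false

open NumberField IsDedekindDomain Module

noncomputable section

namespace Fermat.Agent.S55.S2Count92

section Generic

variable {H0 X : Type*} [AddCommGroup H0] [AddCommGroup X] {p : ℕ} [Fact p.Prime]

/-- `|range f| = |H⁰ / p H⁰|` when `ker f = p H⁰` -/
theorem card_range_of_ker_eq (f : H0 →+ X) (hker : ∀ c, f c = 0 ↔ ∃ b, p • b = c) :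
    Nat.card f.range = Nat.card (H0 ⧸ LinearMap.range (smulEnd H0 p)) := by
  have hk : f.ker = (LinearMap.range (smulEnd H0 p)).toAddSubgroup := by
    ext c
    rw [AddMonoidHom.mem_ker, hker]
    constructor
    · rintro ⟨b, rfl⟩
      exact ⟨b, smulEnd_apply p b⟩
    · rintro ⟨b, hb⟩
      exact ⟨b, by rw [← hb, smulEnd_apply]⟩
  have h1 := AddSubgroup.index_ker f
  rw [hk] at h1
  exact h1.symm

variable [Module (ZMod p) X]

/-- **dimension of the Kummer image**: `finrank E = s` -/
theorem finrank_eq_of_kummer (f : H0 →+ X) (hker : ∀ c, f c = 0 ↔ ∃ b, p • b = c) {s : ℕ}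
    (hcard : Nat.card (H0 ⧸ LinearMap.range (smulEnd H0 p)) = p ^ s)
    (E : Submodule (ZMod p) X) (hE : ∀ x, x ∈ E ↔ ∃ c, f c = x) :
    Module.Finite (ZMod p) E ∧ finrank (ZMod p) E = s := by
  have hcardE : Nat.card E = p ^ s := by
    rw [← hcard, ← card_range_of_ker_eq f hker]
    refine Nat.card_congr (Equiv.subtypeEquivRight (fun x => ?_))
    rw [hE x, AddMonoidHom.mem_range]
  have hfin : Finite E := by
    apply Nat.finite_of_card_ne_zero
    rw [hcardE]
    exact pow_ne_zero _ (Fact.out : p.Prime).ne_zero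
  have hmf : Module.Finite (ZMod p) E := Module.Finite.of_finite
  refine ⟨hmf, ?_⟩
  have h2 : Nat.card E = p ^ finrank (ZMod p) E := by
    rw [Module.natCard_eq_pow_finrank (K := ZMod p) (V := E), Nat.card_zmod]
  rw [hcardE] at h2
  exact (Nat.pow_right_injective (Fact.out : p.Prime).two_le h2).symm

end Generic

section ES

open Fermat.Agent.S55.ESDiv20 (ES QS)
open Fermat.Agent.S55.ESRep20 (ESRep)

variable (S : Finset Nat.Primes) (L : IntermediateField ℚ Qb) [NumberField L]

/-- **the input `hs` of the (S2) count**: for `V = G_L`, `μ_p ⊂ L ⊆ Q_S`, `p` odd, any additive map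
`f` from `H⁰(V, E_S)` into a `ZMod p`-space with kernel `p H⁰(V, E_S)` (the Kummer connecting map,
possibly followed by an injective coefficient change) has image of dimension `#T + r₂`. -/
theorem finrank_eq_of_kummer_ES (V : Subgroup GQ) (hV : V = L.fixingSubgroup)
    (hL : L ≤ QS S) (T : Finset (HeightOneSpectrum (𝓞 L)))
    (hT : ∀ v, v ∈ T ↔ ∃ q ∈ S, (((q : Nat.Primes) : ℕ) : 𝓞 L) ∈ v.asIdeal)
    {p : ℕ} [Fact p.Prime] (hp2 : p ≠ 2) {ζ : L} (hζ : IsPrimitiveRoot ζ p)
    {X : Type*} [AddCommGroup X] [Module (ZMod p) X]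
    (f : ↥((Rep.res V.subtype (ESRep S)).ρ.invariants) →+ X)
    (hker : ∀ c, f c = 0 ↔ ∃ b, p • b = c)
    (E : Submodule (ZMod p) X) (hE : ∀ x, x ∈ E ↔ ∃ c, f c = x) :
    Module.Finite (ZMod p) E ∧
      finrank (ZMod p) E = T.card + InfinitePlace.nrComplexPlaces L :=
  finrank_eq_of_kummer f hker (card_invariants_quot_smul S L V hV hL T hT hp2 hζ) E hE

end ES

end Fermat.Agent.S55.S2Count92
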