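/-
S55 / 47g (K)-LITERAL (helper92): the Kummer subspace `E ⊆ H¹(U, 𝔽_p)` of the P7' count wire, over
`ShapiroLevel32.kerLevels (globalLevels S) hker` with coefficients `triv (ZMod p) ↥π.ker`, and its
dimension `finrank E = #T + r₂`.

`π : G_ℚ →* Γ` with `π.ker ⊇` a level of `globalLevels S`, `μ_p` trivial on `π.ker`
(`hμ : ∀ σ ∈ π.ker, cycloChar p σ = 1`), `p ∈ S`.  The Kummer sequence
`0 → μ_p → E_S -p→ E_S → 0` (helper20 `ESKummer20.kummer_shortExact'`) restricted to `π.ker`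
gives `δ₀ : H⁰(π.ker, E_S) → H¹(π.ker, μ_p)`; a primitive root `ζ` identifies `μ_p` with the trivial
module `𝔽_p` on `π.ker`, whence

  `kummerMap : H⁰(π.ker, E_S) →+ (kerLevels (globalLevels S) hker).H1 (triv (ZMod p) ↥π.ker)`,
  `kummerMap_eq_zero_iff : kummerMap c = 0 ↔ ∃ b, p • b = c`,
  `kummerE : Submodule (ZMod p) (…H1 (triv …))` (the range),
  `finrank_kummerE : finrank (ZMod p) (kummerE …) = T.card + nrComplexPlaces L`
     (`π.ker = L.fixingSubgroup`, `L ≤ Q_S`, `p` odd, `T` = primes of `L` above `S`).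
-/
import Mathlib
import Fermat.Agent.S55.S2Count92.KummerRank
import Fermat.Agent.S55.ESKummer20
import Fermat.Agent.S55.LevelScalars13.Les
import Fermat.Agent.S55.ShapiroLevel32.Level
import Fermat.Agent.S55.Profin15.LESNat

set_option autoImplicit false
set_option linter.unusedSectionVars false

open NumberField IsDedekindDomain Module ExtCitation

noncomputable section

namespace Fermat.Agent.S55.S2Count92

open Fermat.Agent.S55.Profin15 Fermat.Agent.S55.Profin15.LevelStr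
open Fermat.Agent.S55.ShapiroLevel32 Fermat.Agent.S55.LevelScalars13
open Fermat.Agent.S55.ESDiv20 Fermat.Agent.S55.ESRep20 Fermat.Agent.S55.ESKummer20

section Generic

universe u

variable {G : Type u} [Group G] (𝒰 : LevelStr G)

/-- the inclusion of a subgroup containing a level is level-continuous for the restricted levels -/
theorem isContinuous_subtype_restrictLevels (U₀ : Subgroup G) (h : ∃ V ∈ 𝒰.levels, V ≤ U₀) :
    LevelStr.IsContinuous (restrictLevels 𝒰 U₀ h) 𝒰 U₀.subtype := by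
  intro U hU
  obtain ⟨V, hV, hle⟩ := h
  obtain ⟨W, hW, hWle⟩ := 𝒰.directed U hU V hV
  refine ⟨W.subgroupOf U₀, ⟨W, hW, (hWle.trans inf_le_right).trans hle, rfl⟩, ?_⟩
  intro x hx
  exact (hWle (Subgroup.mem_subgroupOf.1 hx)).1

end Generic

section Kummer

variable (S : Finset Nat.Primes) {p : ℕ} [Fact p.Prime] (hpS : pPrime p ∈ S)
  {Γ : Type} [Group Γ] (π : GQ →* Γ) (hker : ∃ V ∈ (globalLevels S).levels, V ≤ π.ker)

/-- the Kummer sequence restricted to `π.ker` -/
theorem kummer_shortExact_res :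
    LevelStr.ShortExact
      (resLin π.ker.subtype (kummerι' (S := S) hpS).hom.toLinearMap)
      (resLin π.ker.subtype (powHom (hH := ES_galStable (S := S)) p).hom.toLinearMap) :=
  (kummer_shortExact' (S := S) hpS).res π.ker.subtype

/-- `E_S` restricted to `π.ker` is smooth for the restricted levels -/
theorem ESres_isSmooth :
    (kerLevels (globalLevels S) hker).IsSmooth (Rep.res π.ker.subtype (ESRep S)) :=
  (isContinuous_subtype_restrictLevels (globalLevels S) π.ker hker).isSmooth _ (ESRep_isSmooth S)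

variable (ζ : Qbˣ) (hζ : IsPrimitiveRoot ζ p)

/-- `𝔽_p ≃ μ_p`, `a ↦ ζ^a` -/
def muEquiv : ZMod p ≃+ muRep p :=
  AddEquiv.ofBijective (muHom ζ hζ.pow_eq_one) ⟨muHom_injective hζ, muHom_surjective hζ⟩

/-- the same, between the trivial module on `π.ker` and the restriction of `μ_p` -/
def muTrivEquiv : triv (ZMod p) ↥π.ker ≃+ Rep.res π.ker.subtype (muRep p) :=
  muEquiv ζ hζ

variable (hμ : ∀ σ ∈ π.ker, cycloChar p σ = 1)

include hμ in
theorem muTrivEquiv_isAddEquivariant :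
    IsAddEquivariant (A := triv (ZMod p) ↥π.ker) (B := Rep.res π.ker.subtype (muRep p))
      (muTrivEquiv π ζ hζ).toAddMonoidHom := by
  intro g a
  have h1 := muHom_equivariant ζ hζ.pow_eq_one (g : GQ) a
  rw [hμ (g : GQ) g.2, Units.val_one, one_mul] at h1
  exact h1

/-- **the Kummer map** `H⁰(π.ker, E_S) → H¹(π.ker, 𝔽_p)` in level cohomology -/
def kummerMap : ↥(LevelStr.H0 (Rep.res π.ker.subtype (ESRep S))) →+
    (kerLevels (globalLevels S) hker).H1 (triv (ZMod p) ↥π.ker) :=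
  ((addH1equiv (kerLevels (globalLevels S) hker) (muTrivEquiv π ζ hζ)
      (muTrivEquiv_isAddEquivariant π ζ hζ hμ)).symm.toAddMonoidHom).comp
    ((kummer_shortExact_res S hpS π).δ₀ (kerLevels (globalLevels S) hker)
      (ESres_isSmooth S π hker)).toAddMonoidHom

theorem kummerMap_apply (c : ↥(LevelStr.H0 (Rep.res π.ker.subtype (ESRep S)))) :
    kummerMap S hpS π hker ζ hζ hμ c =
      (addH1equiv (kerLevels (globalLevels S) hker) (muTrivEquiv π ζ hζ)
        (muTrivEquiv_isAddEquivariant π ζ hζ hμ)).symm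
        ((kummer_shortExact_res S hpS π).δ₀ (kerLevels (globalLevels S) hker)
          (ESres_isSmooth S π hker) c) := rfl

/-- **exactness at `H⁰`**: `ker (kummerMap) = p • H⁰(π.ker, E_S)` -/
theorem kummerMap_eq_zero_iff (c : ↥(LevelStr.H0 (Rep.res π.ker.subtype (ESRep S)))) :
    kummerMap S hpS π hker ζ hζ hμ c = 0 ↔ ∃ b, p • b = c := by
  rw [kummerMap_apply, AddEquiv.map_eq_zero_iff]
  exact kummer_δ₀_eq_zero_iff (kerLevels (globalLevels S) hker) (kummer_shortExact_res S hpS π)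
    (fun _ => rfl) (ESres_isSmooth S π hker) c

/-- **the Kummer subspace** `E ⊆ H¹(π.ker, 𝔽_p)` -/
def kummerE : Submodule (ZMod p) ((kerLevels (globalLevels S) hker).H1 (triv (ZMod p) ↥π.ker)) :=
  AddSubgroup.toZModSubmodule p (kummerMap S hpS π hker ζ hζ hμ).range

theorem mem_kummerE_iff (x : (kerLevels (globalLevels S) hker).H1 (triv (ZMod p) ↥π.ker)) :
    x ∈ kummerE S hpS π hker ζ hζ hμ ↔ ∃ c, kummerMap S hpS π hker ζ hζ hμ c = x := by
  rw [kummerE, AddSubgroup.mem_toZModSubmodule, AddMonoidHom.mem_range]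

/-! ### the quotient `H¹(π.ker, 𝔽_p) / E` is `H¹(π.ker, E_S)[p]` (for the input (Q)) -/

/-- `H¹(π.ker, 𝔽_p) ≃ H¹(π.ker, μ_p) → H¹(π.ker, E_S)` -/
def kummerToES : (kerLevels (globalLevels S) hker).H1 (triv (ZMod p) ↥π.ker) →+
    (kerLevels (globalLevels S) hker).H1 (Rep.res π.ker.subtype (ESRep S)) :=
  (((kerLevels (globalLevels S) hker).H1map
      (resLin π.ker.subtype (kummerι' (S := S) hpS).hom.toLinearMap)
      (kummer_shortExact_res S hpS π).equivariant_left).toAddMonoidHom).comp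
    (addH1equiv (kerLevels (globalLevels S) hker) (muTrivEquiv π ζ hζ)
      (muTrivEquiv_isAddEquivariant π ζ hζ hμ)).toAddMonoidHom

theorem kummerToES_apply (x : (kerLevels (globalLevels S) hker).H1 (triv (ZMod p) ↥π.ker)) :
    kummerToES S hpS π hker ζ hζ hμ x =
      (kerLevels (globalLevels S) hker).H1map
        (resLin π.ker.subtype (kummerι' (S := S) hpS).hom.toLinearMap)
        (kummer_shortExact_res S hpS π).equivariant_left
        (addH1equiv (kerLevels (globalLevels S) hker) (muTrivEquiv π ζ hζ)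
          (muTrivEquiv_isAddEquivariant π ζ hζ hμ) x) := rfl

/-- **exactness at `H¹(𝔽_p)`**: `ker (H¹(𝔽_p) → H¹(E_S)) = E` -/
theorem kummerToES_eq_zero_iff
    (x : (kerLevels (globalLevels S) hker).H1 (triv (ZMod p) ↥π.ker)) :
    kummerToES S hpS π hker ζ hζ hμ x = 0 ↔ x ∈ kummerE S hpS π hker ζ hζ hμ := by
  rw [kummerToES_apply, kummer_H1map_ι_eq_zero_iff (kerLevels (globalLevels S) hker)
    (kummer_shortExact_res S hpS π) (ESres_isSmooth S π hker), mem_kummerE_iff]
  constructor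
  · rintro ⟨c, hc⟩
    refine ⟨c, ?_⟩
    rw [kummerMap_apply, hc, AddEquiv.symm_apply_apply]
  · rintro ⟨c, hc⟩
    refine ⟨c, ?_⟩
    rw [← hc, kummerMap_apply, AddEquiv.apply_symm_apply]

/-- **exactness at `H¹(E_S)`**: the image of `H¹(𝔽_p) → H¹(E_S)` is the `p`-torsion -/
theorem mem_range_kummerToES_iff
    (y : (kerLevels (globalLevels S) hker).H1 (Rep.res π.ker.subtype (ESRep S))) :
    (∃ x, kummerToES S hpS π hker ζ hζ hμ x = y) ↔ p • y = 0 := by
  rw [kummer_H1_torsion_iff (kerLevels (globalLevels S) hker)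
    (kummer_shortExact_res S hpS π) (fun _ => rfl) (ESres_isSmooth S π hker) y]
  constructor
  · rintro ⟨x, hx⟩
    exact ⟨_, hx⟩
  · rintro ⟨z, hz⟩
    refine ⟨(addH1equiv (kerLevels (globalLevels S) hker) (muTrivEquiv π ζ hζ)
      (muTrivEquiv_isAddEquivariant π ζ hζ hμ)).symm z, ?_⟩
    rw [kummerToES_apply, AddEquiv.apply_symm_apply]
    exact hz

end Kummer

section Count

variable (S : Finset Nat.Primes) {p : ℕ} [Fact p.Prime]

/-- `cycloChar p σ = 1` implies that `σ` fixes the `p`-th roots of unity -/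
theorem fixes_of_cycloChar_eq_one {σ : GQ} (h : cycloChar p σ = 1) {z : Qbˣ} (hz : z ^ p = 1) :
    σ (z : Qb) = z := by
  have : NeZero p := ⟨(Fact.out : p.Prime).ne_zero⟩
  have hspec : (σ : Qb ≃+* Qb) (z : Qb) =
      (z : Qb) ^ ((cycloChar p σ : (ZMod p)ˣ) : ZMod p).val :=
    modularCyclotomicCharacter.spec (L := Qb) (card_rootsOfUnity_eq_self p) (σ : Qb ≃+* Qb)
      ((mem_rootsOfUnity _ _).2 hz)
  rw [h, Units.val_one, ZMod.val_one, pow_one] at hspec
  exact hspec

/-- if `μ_p` is trivial on `G_L` then `L` contains a primitive `p`-th root of unity -/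
theorem exists_primitiveRoot_mem (L : IntermediateField ℚ Qb)
    (hμL : ∀ σ ∈ L.fixingSubgroup, cycloChar p σ = 1) {ζ : Qbˣ} (hζ : IsPrimitiveRoot ζ p) :
    ∃ ζL : L, IsPrimitiveRoot ζL p := by
  have hgal : IsGalois ℚ Qb := Fermat.Agent.Lib.FrobeniusExists.isGalois_Qb
  have hmem : (ζ : Qb) ∈ L := by
    rw [← InfiniteGalois.fixedField_fixingSubgroup L, IntermediateField.mem_fixedField_iff]
    intro g hg
    exact fixes_of_cycloChar_eq_one (hμL g hg) hζ.pow_eq_one
  refine ⟨⟨(ζ : Qb), hmem⟩, ?_⟩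
  have h1 : IsPrimitiveRoot (ζ : Qb) p := IsPrimitiveRoot.coe_units_iff.2 hζ
  exact IsPrimitiveRoot.of_map_of_injective (f := algebraMap L Qb) h1
    (algebraMap L Qb).injective

variable (hpS : pPrime p ∈ S) {Γ : Type} [Group Γ] (π : GQ →* Γ)
  (hker : ∃ V ∈ (globalLevels S).levels, V ≤ π.ker)
  (ζ : Qbˣ) (hζ : IsPrimitiveRoot ζ p) (hμ : ∀ σ ∈ π.ker, cycloChar p σ = 1)

/-- **the dimension of the Kummer subspace**: `finrank E = #T + r₂` -/
theorem finrank_kummerE (L : IntermediateField ℚ Qb) [NumberField L]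
    (hπL : π.ker = L.fixingSubgroup) (hL : L ≤ QS S)
    (T : Finset (HeightOneSpectrum (𝓞 L)))
    (hT : ∀ v, v ∈ T ↔ ∃ q ∈ S, (((q : Nat.Primes) : ℕ) : 𝓞 L) ∈ v.asIdeal) (hp2 : p ≠ 2) :
    Module.Finite (ZMod p) ↥(kummerE S hpS π hker ζ hζ hμ) ∧
      finrank (ZMod p) ↥(kummerE S hpS π hker ζ hζ hμ) =
        T.card + InfinitePlace.nrComplexPlaces L := by
  obtain ⟨ζL, hζL⟩ := exists_primitiveRoot_mem L (fun σ hσ => hμ σ (hπL ▸ hσ)) hζ
  exact finrank_eq_of_kummer_ES S L π.ker hπL hL T hT hp2 hζL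
    (kummerMap S hpS π hker ζ hζ hμ) (kummerMap_eq_zero_iff S hpS π hker ζ hζ hμ) _
    (mem_kummerE_iff S hpS π hker ζ hζ hμ)

/-- **the input (K) of `CountWire96.finrank_sha2_le_finrank_sha1`**, packaged:
`κ := E.subtype`, `π := E.mkQ`, `s := #T + r₂`. -/
theorem kummer_K (L : IntermediateField ℚ Qb) [NumberField L]
    (hπL : π.ker = L.fixingSubgroup) (hL : L ≤ QS S)
    (T : Finset (HeightOneSpectrum (𝓞 L)))
    (hT : ∀ v, v ∈ T ↔ ∃ q ∈ S, (((q : Nat.Primes) : ℕ) : 𝓞 L) ∈ v.asIdeal) (hp2 : p ≠ 2) :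
    Function.Injective (kummerE S hpS π hker ζ hζ hμ).subtype ∧
      Function.Surjective (kummerE S hpS π hker ζ hζ hμ).mkQ ∧
      (∀ e, (kummerE S hpS π hker ζ hζ hμ).mkQ ((kummerE S hpS π hker ζ hζ hμ).subtype e) = 0) ∧
      T.card + InfinitePlace.nrComplexPlaces L ≤
        finrank (ZMod p) ↥(kummerE S hpS π hker ζ hζ hμ) :=
  ⟨Submodule.subtype_injective _, Submodule.mkQ_surjective _,
    fun e => (Submodule.Quotient.mk_eq_zero _).2 e.2,
    (finrank_kummerE S hpS π hker ζ hζ hμ L hπL hL T hT hp2).2.ge⟩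

end Count

end Fermat.Agent.S55.S2Count92
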