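/-
S55 / 47g (K)-LITERAL, adapter (helper92): the literal input (K) of the P7' count wire in helper96's
pinned vocabulary `CountWire96.KQ` (`piU`, `levU`, `kU`, `ESU`, `jU`, `kummerKer`):

  `kummerKer p S U hU hpS ζ hζ.pow_eq_one hmu = kummerE S hpS (piU U) (hkerU hU) ζ hζ _`,
  `finrank (ZMod p) (kummerKer …) = T.card + nrComplexPlaces L`   (`U = L.fixingSubgroup`),
  `T.card + nrComplexPlaces L ≤ finrank (ZMod p) (kummerKer …)`    (= LITERAL (K)).
-/
import Mathlib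
import Fermat.Agent.S55.S2Count92.KummerK
import Fermat.Agent.S55.CountWire96.KQ

set_option autoImplicit false
set_option linter.unusedSectionVars false

open NumberField IsDedekindDomain Module ExtCitation

noncomputable section

namespace Fermat.Agent.S55.S2Count92

open Fermat.Agent.S55.Profin15 Fermat.Agent.S55.Profin15.LevelStr
open Fermat.Agent.S55.ShapiroLevel32 Fermat.Agent.S55.LevelScalars13
open Fermat.Agent.S55.ESDiv20 Fermat.Agent.S55.ESRep20 Fermat.Agent.S55.ESKummer20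
open Fermat.Agent.S55.CountWire96

variable {p : ℕ} [Fact p.Prime] {S : Finset Nat.Primes} {U : Subgroup GQ} [U.Normal]

/-- `μ_p` trivial on `U` in the contract's form ⟹ `cycloChar p = 1` on `(piU U).ker` -/
theorem cycloChar_eq_one_of_mu_piU (hmu : ∀ s ∈ U, (Contract34.mu p).ρ s = 1) :
    ∀ σ ∈ (piU U).ker, cycloChar p σ = 1 := fun σ hσ =>
  Units.ext (by
    rw [Units.val_one]
    exact cycloChar_eq_one_of_mu hmu ((ker_piU U).le hσ))

variable (hU : U ∈ (globalLevels S).levels) (hpS : pPrime p ∈ S) (ζ : Qbˣ)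
  (hζ : IsPrimitiveRoot ζ p) (hmu : ∀ s ∈ U, (Contract34.mu p).ρ s = 1)

/-- `H¹(U, 𝔽_p) → H¹(U, E_S)` of `CountWire96.KQ` is `kummerToES` -/
theorem addH1map_jU_eq (x : (levU S U hU).H1 (kU p U)) :
    addH1map (levU S U hU) (jU p S U hpS ζ hζ.pow_eq_one)
        (jU_equivariant hpS ζ hζ.pow_eq_one hmu) x =
      kummerToES S hpS (piU U) (hkerU hU) ζ hζ (cycloChar_eq_one_of_mu_piU hmu) x := by
  obtain ⟨z, rfl⟩ := Submodule.Quotient.mk_surjective _ x
  rfl

/-- **helper96's seam object is the Kummer subspace** -/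
theorem kummerKer_eq_kummerE :
    kummerKer p S U hU hpS ζ hζ.pow_eq_one hmu =
      kummerE S hpS (piU U) (hkerU hU) ζ hζ (cycloChar_eq_one_of_mu_piU hmu) := by
  ext x
  rw [mem_kummerKer_iff, addH1map_jU_eq hU hpS ζ hζ hmu, kummerToES_eq_zero_iff]

/-- **dimension of the seam object**: `finrank kummerKer = #T + r₂` -/
theorem finrank_kummerKer (L : IntermediateField ℚ Qb) [NumberField L]
    (hUL : U = L.fixingSubgroup) (hL : L ≤ QS S)
    (T : Finset (HeightOneSpectrum (𝓞 L)))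
    (hT : ∀ v, v ∈ T ↔ ∃ q ∈ S, (((q : Nat.Primes) : ℕ) : 𝓞 L) ∈ v.asIdeal) (hp2 : p ≠ 2) :
    Module.Finite (ZMod p) ↥(kummerKer p S U hU hpS ζ hζ.pow_eq_one hmu) ∧
      finrank (ZMod p) ↥(kummerKer p S U hU hpS ζ hζ.pow_eq_one hmu) =
        T.card + InfinitePlace.nrComplexPlaces L := by
  rw [kummerKer_eq_kummerE hU hpS ζ hζ hmu]
  exact finrank_kummerE S hpS (piU U) (hkerU hU) ζ hζ (cycloChar_eq_one_of_mu_piU hmu) L
    ((ker_piU U).trans hUL) hL T hT hp2

/-- **LITERAL (K)** of `CountWire96.KQ` -/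
theorem le_finrank_kummerKer (L : IntermediateField ℚ Qb) [NumberField L]
    (hUL : U = L.fixingSubgroup) (hL : L ≤ QS S)
    (T : Finset (HeightOneSpectrum (𝓞 L)))
    (hT : ∀ v, v ∈ T ↔ ∃ q ∈ S, (((q : Nat.Primes) : ℕ) : 𝓞 L) ∈ v.asIdeal) (hp2 : p ≠ 2) :
    T.card + InfinitePlace.nrComplexPlaces L ≤
      finrank (ZMod p) ↥(kummerKer p S U hU hpS ζ hζ.pow_eq_one hmu) :=
  (finrank_kummerKer hU hpS ζ hζ hmu L hUL hL T hT hp2).2.ge

/-- the quotient `H¹(U, 𝔽_p) ⧸ kummerKer` injects into `H¹(U, E_S)` with image the `p`-torsion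
(for the input (Q)) -/
theorem exists_addH1map_jU_eq_iff (y : (levU S U hU).H1 (ESU S U)) :
    (∃ x, addH1map (levU S U hU) (jU p S U hpS ζ hζ.pow_eq_one)
        (jU_equivariant hpS ζ hζ.pow_eq_one hmu) x = y) ↔ p • y = 0 := by
  rw [← mem_range_kummerToES_iff S hpS (piU U) (hkerU hU) ζ hζ (cycloChar_eq_one_of_mu_piU hmu) y]
  constructor
  · rintro ⟨x, hx⟩
    exact ⟨x, by rw [← addH1map_jU_eq hU hpS ζ hζ hmu, hx]⟩
  · rintro ⟨x, hx⟩
    exact ⟨x, by rw [addH1map_jU_eq hU hpS ζ hζ hmu, hx]⟩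

end Fermat.Agent.S55.S2Count92
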