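/-
S55 / 47g (Q)-BOOKKEEPING (helper92): the input (Q) of the P7' count wire, reduced to the single
deep statement `sha² ⊆ range δ₁` (kernel half of (S1)).

With the notation of `KummerK` (`𝒰 = kerLevels (globalLevels S) hker`, `X₁ = H¹(π.ker, 𝔽_p)`,
`X₂ = H²(π.ker, 𝔽_p)`, `A = H¹(π.ker, E_S)`):

* `kummerδ₁ : A →+ X₂` (the connecting map of the Kummer sequence, transported to `𝔽_p`
  coefficients), `kummerδ₁_eq_zero_iff : kummerδ₁ a = 0 ↔ ∃ b, p • b = a`;
* `finrank_le_of_le_range_kummerδ₁` : for a subspace `sha ⊆ X₂` contained in `range kummerδ₁` and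
  `X₁` finite, `sha` is finite and `finrank sha ≤ finrank (X₁ ⧸ kummerE)`.

Chain: `|sha| ≤ |range δ₁| = |A/pA| ≤ |A[p]| = |range (X₁ → A)| = |X₁ ⧸ kummerE|`
(`A` torsion: `S1_67.Level.H1_torsion`; `|A/pA| ≤ |A[p]|`: `TorsionQuot48`).
-/
import Mathlib
import Fermat.Agent.S55.S2Count92.KummerK
import Fermat.Agent.S55.S1_67.Level
import Fermat.Agent.S55.TorsionQuot48

set_option autoImplicit false
set_option linter.unusedSectionVars false

open NumberField IsDedekindDomain Module ExtCitation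

noncomputable section

namespace Fermat.Agent.S55.S2Count92

open Fermat.Agent.S55.Profin15 Fermat.Agent.S55.Profin15.LevelStr
open Fermat.Agent.S55.ShapiroLevel32 Fermat.Agent.S55.LevelScalars13
open Fermat.Agent.S55.ESDiv20 Fermat.Agent.S55.ESRep20 Fermat.Agent.S55.ESKummer20

section Generic

variable {X₁ A X₂ : Type*} [AddCommGroup X₁] [AddCommGroup A] [AddCommGroup X₂]
  {p : ℕ} [Fact p.Prime] [Module (ZMod p) X₁] [Module (ZMod p) X₂]

/-- abstract form of the chain `|sha| ≤ |range d| = |A/pA| ≤ |A[p]| = |X₁ ⧸ E|` -/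
theorem finrank_le_of_chain (f : X₁ →+ A) (d : A →+ X₂)
    (E : Submodule (ZMod p) X₁) (hE : ∀ x, f x = 0 ↔ x ∈ E)
    (hf : ∀ y : A, (∃ x, f x = y) ↔ p • y = 0)
    (hd : ∀ a : A, d a = 0 ↔ ∃ b, p • b = a)
    (htors : ∀ a : A, ∃ n : ℕ, 0 < n ∧ n • a = 0)
    [Module.Finite (ZMod p) X₁]
    (sha : Submodule (ZMod p) X₂) (hsha : ∀ x ∈ sha, ∃ a, d a = x) :
    Module.Finite (ZMod p) ↥sha ∧ finrank (ZMod p) ↥sha ≤ finrank (ZMod p) (X₁ ⧸ E) := by
  have hp : p.Prime := Fact.out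
  have hX₁ : Finite X₁ := Module.finite_of_finite (ZMod p)
  -- `A[p]` is finite
  have hkerfin : Finite (nsmulAddMonoidHom (α := A) p).ker := by
    have hsurj : Function.Surjective (fun x : X₁ =>
        (⟨f x, by
          rw [TorsionQuot48.mem_ker_nsmul_iff]
          exact (hf (f x)).1 ⟨x, rfl⟩⟩ : (nsmulAddMonoidHom (α := A) p).ker)) := by
      rintro ⟨y, hy⟩
      rw [TorsionQuot48.mem_ker_nsmul_iff] at hy
      obtain ⟨x, hx⟩ := (hf y).2 hy
      exact ⟨x, Subtype.ext hx⟩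
    exact Finite.of_surjective _ hsurj
  have htors' : IsAddTorsion A := by
    intro a
    obtain ⟨n, hn, hna⟩ := htors a
    exact isOfFinAddOrder_iff_nsmul_eq_zero.2 ⟨n, hn, hna⟩
  obtain ⟨hquotfin, hquotle⟩ := TorsionQuot48.finite_and_card_quotient_le (A := A) p htors'
  -- `range d ≃ A / pA`
  have hdker : d.ker = (nsmulAddMonoidHom (α := A) p).range := by
    ext a
    rw [AddMonoidHom.mem_ker, hd, TorsionQuot48.mem_range_nsmul_iff]
  have e1 : (A ⧸ d.ker) ≃+ d.range := QuotientAddGroup.quotientKerEquivRange d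
  have hrangefin : Finite d.range := by
    have : Finite (A ⧸ d.ker) := by rw [hdker]; exact hquotfin
    exact Finite.of_equiv _ e1.toEquiv
  have hrangecard : Nat.card d.range = Nat.card (A ⧸ (nsmulAddMonoidHom (α := A) p).range) := by
    rw [← Nat.card_congr e1.toEquiv, hdker]
  -- `sha ↪ range d`
  have hinj1 : Function.Injective (fun x : sha =>
      (⟨(x : X₂), AddMonoidHom.mem_range.2 (hsha x x.2)⟩ : d.range)) := by
    intro x y hxy
    exact Subtype.ext (congrArg (fun z : d.range => (z : X₂)) hxy)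
  have hshafin : Finite sha := Finite.of_injective _ hinj1
  have h1 : Nat.card sha ≤ Nat.card d.range := Nat.card_le_card_of_injective _ hinj1
  -- `A[p] ↪ X₁ ⧸ E`
  have hchoose : ∀ y : (nsmulAddMonoidHom (α := A) p).ker, ∃ x : X₁, f x = (y : A) := fun y =>
    (hf y).2 ((TorsionQuot48.mem_ker_nsmul_iff p (y : A)).1 y.2)
  have hinj2 : Function.Injective (fun y : (nsmulAddMonoidHom (α := A) p).ker =>
      E.mkQ (Classical.choose (hchoose y))) := by
    intro y y' hyy'
    have h := (Submodule.Quotient.eq E).1 hyy'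
    have h2 : f (Classical.choose (hchoose y) - Classical.choose (hchoose y')) = 0 :=
      (hE _).2 h
    rw [map_sub, Classical.choose_spec (hchoose y), Classical.choose_spec (hchoose y'),
      sub_eq_zero] at h2
    exact Subtype.ext h2
  have hquotEfin : Finite (X₁ ⧸ E) := Quotient.finite _
  have h2 : Nat.card (nsmulAddMonoidHom (α := A) p).ker ≤ Nat.card (X₁ ⧸ E) :=
    Nat.card_le_card_of_injective _ hinj2
  have hcard : Nat.card sha ≤ Nat.card (X₁ ⧸ E) := by
    calc Nat.card sha ≤ Nat.card d.range := h1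
      _ = Nat.card (A ⧸ (nsmulAddMonoidHom (α := A) p).range) := hrangecard
      _ ≤ Nat.card (nsmulAddMonoidHom (α := A) p).ker := hquotle
      _ ≤ Nat.card (X₁ ⧸ E) := h2
  have hmf : Module.Finite (ZMod p) ↥sha := Module.Finite.of_finite
  refine ⟨hmf, ?_⟩
  have c1 : Nat.card sha = p ^ finrank (ZMod p) ↥sha := by
    rw [Module.natCard_eq_pow_finrank (K := ZMod p) (V := ↥sha), Nat.card_zmod]
  have c2 : Nat.card (X₁ ⧸ E) = p ^ finrank (ZMod p) (X₁ ⧸ E) := by
    rw [Module.natCard_eq_pow_finrank (K := ZMod p) (V := X₁ ⧸ E), Nat.card_zmod]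
  rw [c1, c2] at hcard
  exact (Nat.pow_le_pow_iff_right hp.one_lt).1 hcard

end Generic

section KummerQ

variable (S : Finset Nat.Primes) {p : ℕ} [Fact p.Prime] (hpS : pPrime p ∈ S)
  {Γ : Type} [Group Γ] (π : GQ →* Γ) (hker : ∃ V ∈ (globalLevels S).levels, V ≤ π.ker)
  (ζ : Qbˣ) (hζ : IsPrimitiveRoot ζ p) (hμ : ∀ σ ∈ π.ker, cycloChar p σ = 1)

/-- the connecting map `H¹(π.ker, E_S) → H²(π.ker, μ_p) ≃ H²(π.ker, 𝔽_p)` -/
def kummerδ₁ : (kerLevels (globalLevels S) hker).H1 (Rep.res π.ker.subtype (ESRep S)) →+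
    (kerLevels (globalLevels S) hker).H2 (triv (ZMod p) ↥π.ker) :=
  ((addH2equiv (kerLevels (globalLevels S) hker) (muTrivEquiv π ζ hζ)
      (muTrivEquiv_isAddEquivariant π ζ hζ hμ)).symm.toAddMonoidHom).comp
    ((kummer_shortExact_res S hpS π).δ₁ (kerLevels (globalLevels S) hker)
      (ESres_isSmooth S π hker)).toAddMonoidHom

theorem kummerδ₁_apply
    (a : (kerLevels (globalLevels S) hker).H1 (Rep.res π.ker.subtype (ESRep S))) :
    kummerδ₁ S hpS π hker ζ hζ hμ a =
      (addH2equiv (kerLevels (globalLevels S) hker) (muTrivEquiv π ζ hζ)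
        (muTrivEquiv_isAddEquivariant π ζ hζ hμ)).symm
        ((kummer_shortExact_res S hpS π).δ₁ (kerLevels (globalLevels S) hker)
          (ESres_isSmooth S π hker) a) := rfl

/-- **exactness at `H¹(E_S)`**: `ker δ₁ = p • H¹(π.ker, E_S)` -/
theorem kummerδ₁_eq_zero_iff
    (a : (kerLevels (globalLevels S) hker).H1 (Rep.res π.ker.subtype (ESRep S))) :
    kummerδ₁ S hpS π hker ζ hζ hμ a = 0 ↔ ∃ b, p • b = a := by
  rw [kummerδ₁_apply, AddEquiv.map_eq_zero_iff]
  exact S1_67.Level.kummer_δ₁_eq_zero_iff (kerLevels (globalLevels S) hker)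
    (kummer_shortExact_res S hpS π) (fun _ => rfl) (ESres_isSmooth S π hker) a

/-- **(Q) from `sha ⊆ range δ₁`** -/
theorem finrank_le_of_le_range_kummerδ₁
    [Module.Finite (ZMod p) ((kerLevels (globalLevels S) hker).H1 (triv (ZMod p) ↥π.ker))]
    (sha : Submodule (ZMod p) ((kerLevels (globalLevels S) hker).H2 (triv (ZMod p) ↥π.ker)))
    (hsha : ∀ x ∈ sha, ∃ a, kummerδ₁ S hpS π hker ζ hζ hμ a = x) :
    Module.Finite (ZMod p) ↥sha ∧
      finrank (ZMod p) ↥sha ≤
        finrank (ZMod p) ((kerLevels (globalLevels S) hker).H1 (triv (ZMod p) ↥π.ker) ⧸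
          kummerE S hpS π hker ζ hζ hμ) :=
  finrank_le_of_chain (kummerToES S hpS π hker ζ hζ hμ) (kummerδ₁ S hpS π hker ζ hζ hμ)
    (kummerE S hpS π hker ζ hζ hμ) (kummerToES_eq_zero_iff S hpS π hker ζ hζ hμ)
    (mem_range_kummerToES_iff S hpS π hker ζ hζ hμ) (kummerδ₁_eq_zero_iff S hpS π hker ζ hζ hμ)
    (S1_67.Level.H1_torsion (kerLevels (globalLevels S) hker)) sha hsha

end KummerQ

end Fermat.Agent.S55.S2Count92
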