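/-
S55 / 47g (Q)-BOOKKEEPING, adapter (helper92): the literal input (Q) of the P7' count wire in
helper96's pinned vocabulary `CountWire96.KQ`, reduced to `sha ⊆ range δ₁`:

  `finrank_sha_le_finrank_quot_kummerKer` :
     `finrank sha ≤ finrank ((levU S U hU).H1 (kU p U) ⧸ kummerKer …)`  and `Module.Finite sha`
  for every subspace `sha ⊆ (levU S U hU).H2 (kU p U)` contained in the range of
  `kummerδ₁U : (levU S U hU).H1 (ESU S U) →+ (levU S U hU).H2 (kU p U)`.
-/
import Mathlib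
import Fermat.Agent.S55.S2Count92.KummerQ
import Fermat.Agent.S55.S2Count92.KummerKQ

set_option autoImplicit false
set_option linter.unusedSectionVars false

open NumberField IsDedekindDomain Module ExtCitation

noncomputable section

namespace Fermat.Agent.S55.S2Count92

open Fermat.Agent.S55.Profin15 Fermat.Agent.S55.Profin15.LevelStr
open Fermat.Agent.S55.ShapiroLevel32 Fermat.Agent.S55.LevelScalars13
open Fermat.Agent.S55.ESDiv20 Fermat.Agent.S55.ESRep20 Fermat.Agent.S55.ESKummer20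
open Fermat.Agent.S55.CountWire96

variable {p : ℕ} [Fact p.Prime] {S : Finset Nat.Primes} {U : Subgroup GQ} [U.Normal]
  (hU : U ∈ (globalLevels S).levels) (hpS : pPrime p ∈ S) (ζ : Qbˣ)
  (hζ : IsPrimitiveRoot ζ p) (hmu : ∀ s ∈ U, (Contract34.mu p).ρ s = 1)

/-- the Kummer connecting map `H¹(U, E_S) → H²(U, 𝔽_p)` in the vocabulary of `CountWire96.KQ` -/
def kummerδ₁U : (levU S U hU).H1 (ESU S U) →+ (levU S U hU).H2 (kU p U) :=
  kummerδ₁ S hpS (piU U) (hkerU hU) ζ hζ (cycloChar_eq_one_of_mu_piU hmu)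

theorem kummerδ₁U_eq_zero_iff (a : (levU S U hU).H1 (ESU S U)) :
    kummerδ₁U hU hpS ζ hζ hmu a = 0 ↔ ∃ b, p • b = a :=
  kummerδ₁_eq_zero_iff S hpS (piU U) (hkerU hU) ζ hζ (cycloChar_eq_one_of_mu_piU hmu) a

/-- `kummerδ₁U` on representatives: if `y` is a level cochain of `E_S` with `p • y = a` (a cocycle
representing `[a]`) then `ζ ^ kummerδ₁U [a] = d y`.  Stated through the defining equivalence. -/
theorem addH2equiv_kummerδ₁U (a : (levU S U hU).H1 (ESU S U)) :
    addH2equiv (levU S U hU) (muTrivEquiv (piU U) ζ hζ)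
        (muTrivEquiv_isAddEquivariant (piU U) ζ hζ (cycloChar_eq_one_of_mu_piU hmu))
        (kummerδ₁U hU hpS ζ hζ hmu a) =
      (kummer_shortExact_res S hpS (piU U)).δ₁ (levU S U hU)
        (ESres_isSmooth S (piU U) (hkerU hU)) a := by
  rw [kummerδ₁U, kummerδ₁_apply, AddEquiv.apply_symm_apply]

/-- **LITERAL (Q)** (and the finiteness `hfin` of `ShaTransport84.hilbertCountL_level_of_countWire`)
from `sha ⊆ range δ₁`. -/
theorem finrank_sha_le_finrank_quot_kummerKer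
    [Module.Finite (ZMod p) ((levU S U hU).H1 (kU p U))]
    (sha : Submodule (ZMod p) ((levU S U hU).H2 (kU p U)))
    (hsha : ∀ x ∈ sha, ∃ a, kummerδ₁U hU hpS ζ hζ hmu a = x) :
    Module.Finite (ZMod p) ↥sha ∧
      finrank (ZMod p) ↥sha ≤
        finrank (ZMod p) ((levU S U hU).H1 (kU p U) ⧸
          kummerKer p S U hU hpS ζ hζ.pow_eq_one hmu) := by
  rw [kummerKer_eq_kummerE hU hpS ζ hζ hmu]
  exact finrank_le_of_le_range_kummerδ₁ S hpS (piU U) (hkerU hU) ζ hζ
    (cycloChar_eq_one_of_mu_piU hmu) sha hsha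

/-- **(K) + (Q) ⟹ `hB`** of `LevelCup47.Iso.le_finrank_sha1`: with `s = #T + r₂`,
`s + finrank sha ≤ finrank H¹(U, 𝔽_p)`. -/
theorem add_finrank_sha_le_finrank_H1
    [Module.Finite (ZMod p) ((levU S U hU).H1 (kU p U))]
    (L : IntermediateField ℚ Qb) [NumberField L]
    (hUL : U = L.fixingSubgroup) (hL : L ≤ QS S)
    (T : Finset (HeightOneSpectrum (𝓞 L)))
    (hT : ∀ v, v ∈ T ↔ ∃ q ∈ S, (((q : Nat.Primes) : ℕ) : 𝓞 L) ∈ v.asIdeal) (hp2 : p ≠ 2)
    (sha : Submodule (ZMod p) ((levU S U hU).H2 (kU p U)))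
    (hsha : ∀ x ∈ sha, ∃ a, kummerδ₁U hU hpS ζ hζ hmu a = x) :
    (T.card + InfinitePlace.nrComplexPlaces L) + finrank (ZMod p) ↥sha ≤
      finrank (ZMod p) ((levU S U hU).H1 (kU p U)) :=
  add_le_finrank_H1 p S U hU hpS ζ hζ.pow_eq_one hmu _ _
    (le_finrank_kummerKer hU hpS ζ hζ hmu L hUL hL T hT hp2)
    (finrank_sha_le_finrank_quot_kummerKer hU hpS ζ hζ hmu sha hsha).2

end Fermat.Agent.S55.S2Count92
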