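/-
S55 / 47f-COUNT-WIRE seam test + glue (helper92): helper23's `CountWire23.LevelInputs p S U hU t`
from the landed (K) + (Q)-bookkeeping of `S2Count92` and the REMAINING named inputs:

* `finH1`, `finLoc` (finiteness of the global / local `H¹` with `𝔽_p` coefficients),
* `Λ`, `hnd`, `hrec` (local functionals: local duality + reciprocity at the level `U`),
* `hW : ∑_w dim H¹(L_w, 𝔽_p) ≤ 2 (#T + r₂)`,
* `hsha : Ш²(U) ⊆ range δ₁` (kernel half of (S1) at the level `U`),
* the number field `L` with `U = L.fixingSubgroup`, `L ≤ Q_S`, `T` = primes of `L` above `S`.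

So the count at the level `U` has NO other input.
-/
import Mathlib
import Fermat.Agent.S55.S2Count92.KummerQKQ
import Fermat.Agent.S55.CountWire23.Main

set_option autoImplicit false
set_option linter.unusedSectionVars false

open NumberField IsDedekindDomain Module ExtCitation

noncomputable section

namespace Fermat.Agent.S55.S2Count92

open Fermat.Agent.S55.Profin15 Fermat.Agent.S55.Profin15.LevelStr
open Fermat.Agent.S55.ShapiroLevel32 Fermat.Agent.S55.ShaTransport84
open Fermat.Agent.S55.ESDiv20 Fermat.Agent.S55.ESRep20 Fermat.Agent.S55.ESKummer20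
open Fermat.Agent.S55.CountWire23

variable {p : ℕ} [Fact p.Prime] {S : Finset Nat.Primes} {U : Subgroup GQ} [U.Normal]
  (hU : U ∈ (globalLevels S).levels) (hpS : pPrime p ∈ S) (ζ : Qbˣ)
  (hζ : IsPrimitiveRoot ζ p) (hmu : ∀ s ∈ U, (Contract34.mu p).ρ s = 1)

/-- **`CountWire23.LevelInputs` from the remaining named inputs.** -/
theorem levelInputs_of_hsha {J : ↥S → Type} [Fintype (Σ q : ↥S, J q)] (t : ∀ q : ↥S, J q → GQ)
    (hcov : ∀ q : ↥S, Covers (QuotientGroup.mk' U) (rS S) t q)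
    (finH1 : Module.Finite (ZMod p) ((CountWire23.levU S U hU).H1 (CountWire23.kU p U)))
    (finLoc : ∀ w : Σ q : ↥S, J q,
      Module.Finite (ZMod p) ((locLevels S U hU w).H1 (kLoc p S U w)))
    (L : IntermediateField ℚ Qb) [NumberField L]
    (hUL : U = L.fixingSubgroup) (hL : L ≤ QS S)
    (T : Finset (HeightOneSpectrum (𝓞 L)))
    (hT : ∀ v, v ∈ T ↔ ∃ q ∈ S, (((q : Nat.Primes) : ℕ) : 𝓞 L) ∈ v.asIdeal) (hp2 : p ≠ 2)
    (Λ : ∀ w : Σ q : ↥S, J q, (locLevels S U hU w).H2 (kLoc p S U w) →ₗ[ZMod p] ZMod p)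
    (hnd : ∀ w : Σ q : ↥S, J q, (locForm p S U hU w (Λ w)).SeparatingLeft)
    (hrec : ∀ z : (CountWire23.levU S U hU).H2 (CountWire23.kU p U),
      ∑ w : Σ q : ↥S, J q, Λ w (locRes₂ p S U hU t w z) = 0)
    (hW : ∑ w : Σ q : ↥S, J q,
      finrank (ZMod p) ((locLevels S U hU w).H1 (kLoc p S U w)) ≤
        2 * (T.card + InfinitePlace.nrComplexPlaces L))
    (hsha : ∀ x ∈ USha₂ (k := ZMod p) (hrS S) (hker_mk' hU) t,
      ∃ a, kummerδ₁U hU hpS ζ hζ hmu a = x) :
    LevelInputs p S U hU t := by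
  have hQ := finrank_sha_le_finrank_quot_kummerKer hU hpS ζ hζ hmu
    (USha₂ (k := ZMod p) (hrS S) (hker_mk' hU) t) hsha
  have hB := add_finrank_sha_le_finrank_H1 hU hpS ζ hζ hmu L hUL hL T hT hp2
    (USha₂ (k := ZMod p) (hrS S) (hker_mk' hU) t) hsha
  exact ⟨hcov, finH1, finLoc, Λ, T.card + InfinitePlace.nrComplexPlaces L,
    finrank (ZMod p) ↥(USha₂ (k := ZMod p) (hrS S) (hker_mk' hU) t),
    hnd, hrec, hW, hB, hQ.1, le_rfl⟩

end Fermat.Agent.S55.S2Count92
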