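/-
S55 / 47f-COUNT-WIRE, the seam towards 46-S1 (helper92): the hypothesis `hsha` of
`S2Count92.canonInputs_of_arith` / `hilbertCount_of_arith` from the KERNEL HALF OF (S1) AT THE LEVEL
`U` stated with `ℤ`-coefficients `μ_p = Rep.res _ (muRep p)` (the shape of
`S1_67.Level.sha2_iff (→)` with `locZ w := (hf w).res₂ Z`):

  every `y ∈ H²(U, μ_p)` whose restrictions to all local groups of the conjugate family vanish is
  `δ₁` of a class of `H¹(U, E_S)`.

The passage `μ_p ↔ 𝔽_p` is `addH2equiv muTrivEquiv` + `LevelScalars13.res₂_addH2map`.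
-/
import Mathlib
import Fermat.Agent.S55.S2Count92.KummerQKQ
import Fermat.Agent.S55.ShaTransport84.Wire

set_option autoImplicit false
set_option linter.unusedSectionVars false

open NumberField IsDedekindDomain Module ExtCitation

noncomputable section

namespace Fermat.Agent.S55.S2Count92

open Fermat.Agent.S55.Profin15 Fermat.Agent.S55.Profin15.LevelStr
open Fermat.Agent.S55.ShapiroLevel32 Fermat.Agent.S55.LevelScalars13
open Fermat.Agent.S55.ShaTransport84
open Fermat.Agent.S55.ESDiv20 Fermat.Agent.S55.ESRep20 Fermat.Agent.S55.ESKummer20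
open Fermat.Agent.S55.CountWire96

variable {p : ℕ} [Fact p.Prime] {S : Finset Nat.Primes} {U : Subgroup GQ} [U.Normal]
  (hU : U ∈ (globalLevels S).levels) (hpS : pPrime p ∈ S) (ζ : Qbˣ)
  (hζ : IsPrimitiveRoot ζ p) (hmu : ∀ s ∈ U, (Contract34.mu p).ρ s = 1)

/-- **`hsha` from the kernel half of (S1) with `μ_p`-coefficients over `ℤ`.** -/
theorem hsha_of_kernelHalf {J : ↥S → Type} (t : ∀ q : ↥S, J q → GQ)
    (hker : ∀ y : (levU S U hU).H2 (Rep.res (piU U).ker.subtype (muRep p)),
      (∀ w : Σ q : ↥S, J q,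
        (conjMap_isContinuous (hrS S) (hker_mk' hU) t w).res₂
          (Rep.res (piU U).ker.subtype (muRep p)) y = 0) →
      ∃ a, (kummer_shortExact_res S hpS (piU U)).δ₁ (levU S U hU)
        (ESres_isSmooth S (piU U) (hkerU hU)) a = y) :
    ∀ x ∈ USha₂ (k := ZMod p) (hrS S) (hker_mk' hU) t,
      ∃ a, kummerδ₁U hU hpS ζ hζ hmu a = x := by
  intro x hx
  have hx' : ∀ w : Σ q : ↥S, J q,
      (conjMap_isContinuous (hrS S) (hker_mk' hU) t w).res₂
        (triv (ZMod p) (QuotientGroup.mk' U).ker) x = 0 := by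
    intro w
    have := (Submodule.mem_iInf _).1 hx w
    exact this
  have he := muTrivEquiv_isAddEquivariant (piU U) ζ hζ (cycloChar_eq_one_of_mu_piU hmu)
  obtain ⟨a, ha⟩ := hker
    (addH2equiv (levU S U hU) (muTrivEquiv (piU U) ζ hζ) he x) (fun w => by
      have h1 := res₂_addH2map (conjMap_isContinuous (hrS S) (hker_mk' hU) t w) he x
      rw [hx' w, map_zero] at h1
      exact h1)
  refine ⟨a, ?_⟩
  rw [kummerδ₁U, kummerδ₁_apply, ha]
  exact AddEquiv.symm_apply_apply _ x

end Fermat.Agent.S55.S2Count92
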