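/-
S55 / 47f-COUNT-WIRE, final seam (helper92): helper23's `CountWire23.CanonInputs p S U hU` and the
literal plug (P7') `Contract34.HilbertCount p S` from the ARITHMETIC inputs that remain after

* (K) + (Q)-bookkeeping  (`S2Count92`, helper92),
* `finLoc`, `hW`          (`PlaceCount50.CanonFields`, helper50),
* `hnd`                   (`LevelCup47.HndBase`, helper47: from `LocalBaseDim p S` and `Λ_w ≠ 0`),
* `covers`, `finH1`       (`ShaTransport84`, `CountWire23.FinH1`),

namely, at every level `U` on which `μ_p` is trivial: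
  (A4) `hbase : ShapiroLevel32.LocalBaseDim p S`,
  (R)  local functionals `Λ_w ≠ 0` on `H²(L_w, 𝔽_p)` with `∑_w Λ_w (res_w z) = 0` (reciprocity at `U`),
  (S1) `hsha : Ш²(U, 𝔽_p) ⊆ range δ₁` (kernel half of (S1) at the level `U`).
-/
import Mathlib
import Fermat.Agent.S55.S2Count92.LevelInputs92
import Fermat.Agent.S55.PlaceCount50.CanonFields
import Fermat.Agent.S55.LevelCup47.HndBase

set_option autoImplicit false
set_option linter.unusedSectionVars false

open NumberField IsDedekindDomain Module ExtCitation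

noncomputable section

namespace Fermat.Agent.S55.S2Count92

open Fermat.Agent.S55.Profin15 Fermat.Agent.S55.Profin15.LevelStr
open Fermat.Agent.S55.ShapiroLevel32 Fermat.Agent.S55.ShaTransport84
open Fermat.Agent.S55.ESDiv20 Fermat.Agent.S55.ESRep20 Fermat.Agent.S55.ESKummer20
open Fermat.Agent.S55.CountWire23 Fermat.Agent.S55.PlaceCount50

variable {p : ℕ} [Fact p.Prime] {S : Finset Nat.Primes}

/-- **`CanonInputs` at the level `U` from (A4), (R), (S1).** -/
theorem canonInputs_of_arith (hp2 : p ≠ 2) (hpS : pPrime p ∈ S) (hbase : LocalBaseDim p S)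
    (U : Subgroup GQ) [U.Normal] (hU : U ∈ (globalLevels S).levels)
    (hmu : ∀ s ∈ U, (Contract34.mu p).ρ s = 1)
    (ζ : Qbˣ) (hζ : IsPrimitiveRoot ζ p)
    [Fintype (Σ q : ↥S, canonJ S U q)]
    (Λ : ∀ w : Σ q : ↥S, canonJ S U q,
      (locLevels S U hU w).H2 (kLoc p S U w) →ₗ[ZMod p] ZMod p)
    (hΛ : ∀ w, Λ w ≠ 0)
    (hrec : ∀ z : (CountWire23.levU S U hU).H2 (CountWire23.kU p U),
      ∑ w : Σ q : ↥S, canonJ S U q, Λ w (locRes₂ p S U hU (canonT' S U) w z) = 0)
    (hsha : ∀ x ∈ USha₂ (k := ZMod p) (hrS S) (hker_mk' hU) (canonT' S U),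
      ∃ a, kummerδ₁U hU hpS ζ hζ hmu a = x) :
    CanonInputs p S U hU := by
  obtain ⟨L, hfin, hnor, hunr, hUL⟩ := exists_field_of_mem_globalLevels hU
  have := hfin
  have := hnor
  have : NumberField L := ⟨⟩
  have hin := levelInputs_of_hsha hU hpS ζ hζ hmu (canonT' S U)
    (fun q => covers_canonT (QuotientGroup.mk'_surjective U) (rS S) q)
    (finH1_levU U hU) (fun w => finLoc_of_mu p S U hU hmu w) L hUL (ESDiv20.le_QS hunr)
    (PlaceCount50.primesAboveSet L S) (PlaceCount50.mem_primesAboveSet_iff L S) hp2 Λ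
    (LevelCup47.HndBase.hnd_of_base hbase U hU hmu Λ hΛ) hrec
    (hW_canon p S U hU hpS hp2 L hUL hmu) hsha
  exact ⟨hin.finLoc, hin.exists_count⟩

/-- **THE LITERAL PLUG (P7')** `Contract34.HilbertCount p S` from (A4), (R), (S1). -/
theorem hilbertCount_of_arith (hp2 : p ≠ 2) (hpS : pPrime p ∈ S) (hbase : LocalBaseDim p S)
    (h : ∀ (U : Subgroup GQ) [U.Normal] (hU : U ∈ (globalLevels S).levels)
      (hmu : ∀ s ∈ U, (Contract34.mu p).ρ s = 1),
      ∃ (_ : Fintype (Σ q : ↥S, canonJ S U q))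
        (ζ : Qbˣ) (hζ : IsPrimitiveRoot ζ p)
        (Λ : ∀ w : Σ q : ↥S, canonJ S U q,
          (locLevels S U hU w).H2 (kLoc p S U w) →ₗ[ZMod p] ZMod p),
        (∀ w, Λ w ≠ 0) ∧
        (∀ z : (CountWire23.levU S U hU).H2 (CountWire23.kU p U),
          ∑ w : Σ q : ↥S, canonJ S U q,
            Λ w (locRes₂ p S U hU (canonT' S U) w z) = 0) ∧
        (∀ x ∈ USha₂ (k := ZMod p) (hrS S) (hker_mk' hU) (canonT' S U),
          ∃ a, kummerδ₁U hU hpS ζ hζ hmu a = x)) :
    Contract34.HilbertCount p S :=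
  hilbertCount_of_canonInputs hp2 fun U hU hmu => by
    have hn : U.Normal := (globalLevels S).normal U hU
    obtain ⟨hF, ζ, hζ, Λ, hΛ, hrec, hsha⟩ := h U hU hmu
    exact ⟨hF, canonInputs_of_arith hp2 hpS hbase U hU hmu ζ hζ Λ hΛ hrec hsha⟩

end Fermat.Agent.S55.S2Count92
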